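import Fermat.Agent.Switch.Family

set_option autoImplicit false

/-!
# A member of the family without rational root of the quartic
-/

open Polynomial
open Fermat.Agent.Icosa

namespace Fermat.Agent.Switch

lemma derivative_DD {R : Type*} [CommRing R] (a b M : R) :
    derivative (DD (C a) (C b) (1 + C M * X) (C M)) =
      C M * DD1 (C a) (C b) (1 + C M * X) (C M) := by
  unfold DD DD1
  simp only [derivative_add, derivative_sub, derivative_mul, derivative_pow, derivative_C,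
    derivative_X, derivative_one, derivative_ofNat, derivative_neg]
  push_cast
  simp only [map_ofNat]
  ring

lemma map_DD1 {R S : Type*} [CommRing R] [CommRing S] (φ : R →+* S) (c4 c6 l m : R) :
    φ (DD1 c4 c6 l m) = DD1 (φ c4) (φ c6) (φ l) (φ m) := by
  simp only [DD1, map_add, map_sub, map_mul, map_neg, map_pow, map_ofNat]

lemma DD_one_ne_zero {c4 c6 M : ℤ} (hM : 2 ≤ M.natAbs) : DD c4 c6 1 M ≠ 0 := by
  intro h
  have h1 := congrArg (Int.castRingHom (ZMod M.natAbs)) h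
  rw [map_DD] at h1
  simp only [eq_intCast, Int.cast_one, Int.cast_zero] at h1
  have h2 : ((M : ℤ) : ZMod M.natAbs) = 0 := by
    rw [ZMod.intCast_zmod_eq_zero_iff_dvd]
    exact Int.natAbs_dvd.mpr (dvd_refl M)
  rw [h2, DD_one_zero] at h1
  have : Fact (1 < M.natAbs) := ⟨hM⟩
  exact one_ne_zero h1

theorem exists_good_t {c4 c6 M : ℤ} (hd : c4^3 ≠ c6^2) (hM : 2 ≤ M.natAbs) :
    ∃ t : ℕ, ∀ z : ℤ, quart (CC4 c4 c6 (1 + M * t) M) (CC6 c4 c6 (1 + M * t) M) z ≠ 0 := by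
  by_contra hcon
  push Not at hcon
  have hM0 : M ≠ 0 := by
    rintro rfl; simp at hM
  set c : ℤ[X] := CC4 (C c4) (C c6) (1 + C M * X) (C M) with hc
  set s : ℤ[X] := CC6 (C c4) (C c6) (1 + C M * X) (C M) with hs
  have hce : ∀ t : ℤ, c.eval t = CC4 c4 c6 (1 + M * t) M := by
    intro t
    have := map_CC4 (evalRingHom t) (C c4) (C c6) (1 + C M * X) (C M)
    simp only [coe_evalRingHom, eval_C, eval_add, eval_one, eval_mul, eval_X] at this
    exact this
  have hse : ∀ t : ℤ, s.eval t = CC6 c4 c6 (1 + M * t) M := by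
    intro t
    have := map_CC6 (evalRingHom t) (C c4) (C c6) (1 + C M * X) (C M)
    simp only [coe_evalRingHom, eval_C, eval_add, eval_one, eval_mul, eval_X] at this
    exact this
  obtain ⟨Q, hQd, hQ⟩ := exists_poly_root c s (CC4_natDegree _ _ _) (CC6_natDegree _ _ _)
    (by
      rw [hce, hse, CC_disc, mul_zero, add_zero]
      exact mul_ne_zero (sub_ne_zero.mpr hd) (pow_ne_zero _ (DD_one_ne_zero hM)))
    (by
      intro t
      obtain ⟨z, hz⟩ := hcon t
      exact ⟨z, by rw [hce, hse]; exact hz⟩)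
  -- map to the complex numbers
  let φ : ℚ[X] →+* ℂ[X] := mapRingHom (algebraMap ℚ ℂ)
  have hφ : ∀ a : ℤ, φ ((C a : ℤ[X]).map (Int.castRingHom ℚ)) = C (a : ℂ) := by
    intro a
    simp [φ]
  have hφX : φ ((X : ℤ[X]).map (Int.castRingHom ℚ)) = X := by simp [φ]
  have hφc : φ (c.map (Int.castRingHom ℚ)) =
      CC4 (C (c4 : ℂ)) (C (c6 : ℂ)) (1 + C (M : ℂ) * X) (C (M : ℂ)) := by
    have h1 := map_CC4 (φ.comp (mapRingHom (Int.castRingHom ℚ))) (C c4) (C c6) (1 + C M * X) (C M)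
    simp only [RingHom.comp_apply, coe_mapRingHom, map_add, map_one, map_mul, hφ, hφX] at h1
    exact h1
  have hφs : φ (s.map (Int.castRingHom ℚ)) =
      CC6 (C (c4 : ℂ)) (C (c6 : ℂ)) (1 + C (M : ℂ) * X) (C (M : ℂ)) := by
    have h1 := map_CC6 (φ.comp (mapRingHom (Int.castRingHom ℚ))) (C c4) (C c6) (1 + C M * X) (C M)
    simp only [RingHom.comp_apply, coe_mapRingHom, map_add, map_one, map_mul, hφ, hφX] at h1
    exact h1
  have hq := congrArg φ hQ
  rw [map_quart, map_zero, hφc, hφs] at hq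
  have hdC : (c4 : ℂ)^3 ≠ (c6 : ℂ)^2 := by exact_mod_cast hd
  have hMC : (M : ℂ) ≠ 0 := by exact_mod_cast hM0
  refine no_poly_root (k := ℂ) (κ := (c4 : ℂ)^3 - (c6 : ℂ)^2) (sub_ne_zero.mpr hdC)
    (D := DD (C (c4 : ℂ)) (C (c6 : ℂ)) (1 + C (M : ℂ) * X) (C (M : ℂ))) ?_ ?_
    (CC4_natDegree _ _ _) (z := φ Q) ?_ ?_ hq
  · rw [CC_disc, C_sub, C_pow, C_pow]
  · apply le_antisymm (DD_natDegree_le _ _ _)
    apply le_natDegree_of_ne_zero
    rw [DD_coeff]
    exact pow_ne_zero _ hMC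
  · simp only [φ, coe_mapRingHom]
    exact natDegree_map_le.trans hQd
  · intro r hr
    have e1 := map_DD (evalRingHom r) (C (c4 : ℂ)) (C (c6 : ℂ)) (1 + C (M : ℂ) * X) (C (M : ℂ))
    have e2 := map_CC4 (evalRingHom r) (C (c4 : ℂ)) (C (c6 : ℂ)) (1 + C (M : ℂ) * X) (C (M : ℂ))
    have e3 := map_DD1 (evalRingHom r) (C (c4 : ℂ)) (C (c6 : ℂ)) (1 + C (M : ℂ) * X) (C (M : ℂ))
    simp only [coe_evalRingHom, eval_C, eval_add, eval_one, eval_mul, eval_X] at e1 e2 e3
    rw [e1] at hr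
    have hC4 : CC4 (c4 : ℂ) (c6 : ℂ) (1 + M * r) M ≠ 0 := by
      intro h0
      exact hMC (common_zero (by norm_num) (by norm_num) (by norm_num) hdC hr h0).2
    refine ⟨?_, by rw [e2]; exact hC4⟩
    rw [derivative_DD, eval_mul, eval_C, e3]
    intro h0
    have h1 := (mul_eq_zero.mp h0).resolve_left hMC
    have h2 := CC4_hess (c4 : ℂ) (c6 : ℂ) (1 + M * r) M
    rw [hr, h1] at h2
    apply hC4
    have h3 : ((17424 : ℂ) * M^2) * CC4 (c4 : ℂ) (c6 : ℂ) (1 + M * r) M = 0 := by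
      linear_combination -h2
    exact (mul_eq_zero.mp h3).resolve_left (mul_ne_zero (by norm_num) (pow_ne_zero _ hMC))

end Fermat.Agent.Switch
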