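import Fermat.Agent.Switch.ThreeTor
import Fermat.Prelude.Def_FLTPrelim_ModularRep

set_option autoImplicit false

/-!
# Irreducibility of the mod 3 representation from the quartic
-/

open WeierstrassCurve WeierstrassCurve.Affine WeierstrassCurve.Affine.Point
open Fermat.Agent.Icosa

namespace Fermat.Agent.Switch

/-- A rational root of the quartic is integral. -/
lemma exists_int_root {c s : ℤ} {q : ℚ} (h : quart (c : ℚ) (s : ℚ) q = 0) :
    ∃ z : ℤ, quart c s z = 0 := by
  have hint : IsIntegral ℤ q := by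
    refine ⟨(.X^4 - .C (6*c) * .X^2 - .C (8*s) * .X - .C (3*c^2) : Polynomial ℤ), ?_, ?_⟩
    · monicity!
    · unfold quart at h
      simp only [Polynomial.eval₂_sub, Polynomial.eval₂_mul, Polynomial.eval₂_pow,
        Polynomial.eval₂_X, Polynomial.eval₂_C]
      simp only [algebraMap_int_eq, eq_intCast]
      push_cast
      exact h
  obtain ⟨z, hz⟩ := IsIntegrallyClosed.isIntegral_iff.mp hint
  refine ⟨z, ?_⟩
  rw [← hz] at h
  simp only [algebraMap_int_eq, eq_intCast] at h
  have h1 := map_quart (Int.castRingHom ℚ) c s z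
  simp only [eq_intCast] at h1
  rw [← h1] at h
  exact_mod_cast h

lemma isGaloisRat : IsGalois ℚ (AlgebraicClosure ℚ) := by
  have h : @IsGalois ℚ _ (AlgebraicClosure ℚ) _ (AlgebraicClosure.instAlgebra ℚ) :=
    @IsAlgClosure.isGalois ℚ (AlgebraicClosure ℚ) _ _ (AlgebraicClosure.instAlgebra ℚ) inferInstance _
  have e : (DivisionRing.toRatAlgebra : Algebra ℚ (AlgebraicClosure ℚ)) =
    AlgebraicClosure.instAlgebra ℚ := Subsingleton.elim _ _
  rw [e]
  exact h

theorem irr3 (W : WeierstrassCurve ℤ) (hΔ : W.Δ ≠ 0) (h : ∀ z : ℤ, quart W.c₄ W.c₆ z ≠ 0) :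
    W.ModRepIsIrreducible 3 := by
  set K := AlgebraicClosure ℚ with hK
  set E := W.map (Int.castRingHom ℚ) with hE
  set V : WeierstrassCurve K := E⁄K with hV
  have h3 : (3 : K) ≠ 0 := by norm_num
  have hVW : V = W.map (Int.castRingHom K) := by
    rw [hV, hE]
    change (W.map (Int.castRingHom ℚ)).map (algebraMap ℚ K) = _
    rw [WeierstrassCurve.map_map]
    congr 1
  have hVΔ : V.Δ ≠ 0 := by
    rw [hVW, map_Δ]
    simpa using hΔ
  have hVell : V.IsElliptic := by
    rw [WeierstrassCurve.isElliptic_iff]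
    exact isUnit_iff_ne_zero.mpr hVΔ
  have hnon : ∃ P : V.toAffine.Point, P ≠ 0 ∧ (3 : ℤ) • P = 0 := by
    obtain ⟨x, hx⟩ := IsAlgClosed.exists_root (psi3P V) (by
      intro h0
      have h1 : (psi3P V).natDegree = 0 := Polynomial.natDegree_eq_zero_iff_degree_le_zero.mpr h0.le
      have h2 := Polynomial.coeff_eq_zero_of_natDegree_lt (p := psi3P V) (n := 4) (by omega)
      rw [psi3P_coeff] at h2
      exact h3 h2)
    rw [Polynomial.IsRoot.def, psi3P_eval] at hx
    obtain ⟨w, hw⟩ := IsAlgClosed.exists_pow_nat_eq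
      ((V.a₁*x+V.a₃)^2 + 4*(x^3 + V.a₂*x^2 + V.a₄*x + V.a₆)) (n := 2) two_pos
    obtain ⟨y, hy⟩ : ∃ y : K, w = 2 * y + (V.a₁*x+V.a₃) :=
      ⟨(w - (V.a₁*x+V.a₃))/2, by ring⟩
    have heq : V.toAffine.Equation x y := by
      rw [WeierstrassCurve.Affine.equation_iff]
      have h4 : (4 : K) ≠ 0 := by norm_num
      apply mul_left_cancel₀ h4
      rw [hy] at hw
      linear_combination hw
    have hns := equation_iff_nonsingular.mp heq
    exact ⟨.some _ _ hns, some_ne_zero _, three_smul_of_psi3 hns hx⟩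
  refine ⟨?_, ?_⟩
  · obtain ⟨P, hP, hP3⟩ := hnon
    exact ⟨⟨P, by rw [Submodule.mem_torsionBy_iff]; exact hP3⟩, 0,
      fun h => hP (congrArg Subtype.val h)⟩
  · intro N hN
    by_cases hbot : N = ⊥
    · exact Or.inl hbot
    right
    obtain ⟨P, hPN, hP0⟩ := Submodule.exists_mem_ne_zero_of_ne_bot hbot
    have htor : ∀ A : Submodule.torsionBy ℤ (E⁄K).Point (3 : ℕ),
        (3 : ℤ) • (A : V.toAffine.Point) = 0 := by
      intro A
      have := A.2
      rw [Submodule.mem_torsionBy_iff] at this
      exact this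
    have hP0' : (P : V.toAffine.Point) ≠ 0 := fun h => hP0 (Subtype.ext h)
    obtain ⟨σ, hσ1, hσ2⟩ : ∃ σ : K ≃ₐ[ℚ] K, (σ • P) ≠ P ∧ (σ • P) ≠ -P := by
      by_contra hcon
      push Not at hcon
      obtain ⟨q, hq⟩ : ∃ q : ℚ, algebraMap ℚ K q = xc (P : V.toAffine.Point) := by
        have : xc (P : V.toAffine.Point) ∈ Set.range (algebraMap ℚ K) := by
          have := isGaloisRat
          rw [InfiniteGalois.mem_range_algebraMap_iff_fixed]
          intro σ
          have hx : ∀ A : V.toAffine.Point, A ≠ 0 →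
              xc (σ • A : V.toAffine.Point) = σ (xc A) := by
            intro A hA
            match A, hA with
            | .some x y h, hA => rfl
          have hneg : ∀ A : V.toAffine.Point, xc (-A) = xc A := by
            intro A
            match A with
            | 0 => rfl
            | .some x y h => rfl
          rw [← hx _ hP0']
          by_cases h1 : σ • P = P
          · have := congrArg Subtype.val h1
            exact congrArg xc this
          · have := congrArg Subtype.val (hcon σ h1)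
            rw [← hneg (P : V.toAffine.Point)]
            exact congrArg xc this
        exact this
      have h1 := xc_psi3 hP0' (htor P)
      have h2 := quart_psi3 V (xc (P : V.toAffine.Point))
      rw [h1, mul_zero, ← hq] at h2
      have e1 : V.c₄ = algebraMap ℚ K (W.c₄ : ℚ) := by
        rw [hVW, map_c₄]; simp
      have e2 : V.c₆ = algebraMap ℚ K (W.c₆ : ℚ) := by
        rw [hVW, map_c₆]; simp
      have e3 : V.b₂ = algebraMap ℚ K (W.b₂ : ℚ) := by
        rw [hVW, map_b₂]; simp
      rw [e1, e2, e3] at h2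
      have h4 : quart (W.c₄ : ℚ) (W.c₆ : ℚ) (12 * q + W.b₂) = 0 := by
        apply (algebraMap ℚ K).injective
        rw [map_quart, _root_.map_zero, _root_.map_add, _root_.map_mul, map_ofNat]
        exact h2
      obtain ⟨z, hz⟩ := exists_int_root h4
      exact h z hz
    rw [eq_top_iff]
    intro R _
    let H : AddSubgroup V.toAffine.Point :=
      (N.toAddSubgroup).map (Submodule.torsionBy ℤ (E⁄K).Point (3 : ℕ)).subtype.toAddMonoidHom
    have hmemH : ∀ A : Submodule.torsionBy ℤ (E⁄K).Point (3 : ℕ),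
        (A : V.toAffine.Point) ∈ H → A ∈ N := by
      rintro A ⟨B, hB, hBA⟩
      have : B = A := Subtype.ext hBA
      rw [← this]; exact hB
    apply hmemH
    have hσ0 : (σ • P) ≠ 0 := by
      intro h0
      apply hP0
      have h1 : σ⁻¹ • (σ • P) = P := inv_smul_smul σ P
      rw [h0] at h1
      rw [← h1]
      exact smul_zero _
    refine mem_span_of_three h3 (P := (P : V.toAffine.Point)) (Q := ((σ • P : _) : V.toAffine.Point))
      hP0' (fun h0 => hσ0 (Subtype.ext h0)) (htor P) (htor _) (htor R)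
      (fun h0 => hσ1 (Subtype.ext h0)) (fun h0 => hσ2 (Subtype.ext h0)) H ?_ ?_
    · exact ⟨P, hPN, rfl⟩
    · exact ⟨σ • P, hN σ P hPN, rfl⟩

end Fermat.Agent.Switch
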