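import Fermat.Agent.Switch.CardShort
import Fermat.Agent.Switch.GoodT
import Fermat.Agent.Switch.Irr3

set_option autoImplicit false

/-!
# The 3-5 switch
-/

open WeierstrassCurve
open Fermat.Agent.Icosa Fermat.Agent.Schoof

namespace Fermat.Agent.Switch

section congr

variable {c4 c6 M : ℤ}

lemma cast_M (a : ℤ) : ((1 + M * a : ℤ) : ZMod M.natAbs) = 1 ∧ ((M : ℤ) : ZMod M.natAbs) = 0 := by
  have h2 : ((M : ℤ) : ZMod M.natAbs) = 0 := by
    rw [ZMod.intCast_zmod_eq_zero_iff_dvd]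
    exact Int.natAbs_dvd.mpr (dvd_refl M)
  refine ⟨?_, h2⟩
  push_cast
  rw [h2, zero_mul, add_zero]

lemma CC4_congr (a : ℤ) : M ∣ CC4 c4 c6 (1 + M * a) M - c4 := by
  rw [← Int.natAbs_dvd, ← ZMod.intCast_zmod_eq_zero_iff_dvd]
  obtain ⟨h1, h2⟩ := cast_M (M := M) a
  have h := map_CC4 (Int.castRingHom (ZMod M.natAbs)) c4 c6 (1 + M * a) M
  simp only [eq_intCast] at h
  rw [Int.cast_sub, h, h1, h2, CC4_one_zero, sub_self]

lemma CC6_congr (a : ℤ) : M ∣ CC6 c4 c6 (1 + M * a) M - c6 := by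
  rw [← Int.natAbs_dvd, ← ZMod.intCast_zmod_eq_zero_iff_dvd]
  obtain ⟨h1, h2⟩ := cast_M (M := M) a
  have h := map_CC6 (Int.castRingHom (ZMod M.natAbs)) c4 c6 (1 + M * a) M
  simp only [eq_intCast] at h
  rw [Int.cast_sub, h, h1, h2, CC6_one_zero, sub_self]

lemma DD_congr (a : ℤ) : M ∣ DD c4 c6 (1 + M * a) M - 1 := by
  rw [← Int.natAbs_dvd, ← ZMod.intCast_zmod_eq_zero_iff_dvd]
  obtain ⟨h1, h2⟩ := cast_M (M := M) a
  have h := map_DD (Int.castRingHom (ZMod M.natAbs)) c4 c6 (1 + M * a) M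
  simp only [eq_intCast] at h
  rw [Int.cast_sub, h, h1, h2, DD_one_zero, Int.cast_one, sub_self]

end congr

lemma zmod_ne {l n : ℕ} (h : ¬ l ∣ n) : ((n : ℕ) : ZMod l) ≠ 0 := by
  rw [Ne, ZMod.natCast_eq_zero_iff]; exact h

theorem switch (W : WeierstrassCurve ℤ) (hΔ : W.Δ ≠ 0) (hW : W.IsSemistableModel) :
    ∃ W' : WeierstrassCurve ℤ, W'.Δ ≠ 0 ∧ W'.IsSemistableModel ∧ W'.ModRepIsIrreducible 3 ∧
      ∀ ℓ : ℕ, ℓ.Prime → W.IsGoodPrimeFor ℓ → W'.IsGoodPrimeFor ℓ → ℓ ≠ 5 →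
        (5 : ℤ) ∣ (W'.apOfModel ℓ - W.apOfModel ℓ) := by
  obtain ⟨M, hMdef⟩ : ∃ M : ℤ, M = 864 * 48 * 30 * W.Δ := ⟨_, rfl⟩
  have hM0 : M ≠ 0 := by rw [hMdef]; exact mul_ne_zero (by norm_num) hΔ
  have hM2 : 2 ≤ M.natAbs := by
    rw [hMdef, Int.natAbs_mul]
    have : 1 ≤ W.Δ.natAbs := Int.natAbs_pos.mpr hΔ
    calc 2 ≤ 1244160 * 1 := by norm_num
      _ ≤ (864 * 48 * 30 : ℤ).natAbs * W.Δ.natAbs := Nat.mul_le_mul (by norm_num) this
  have hd : W.c₄ ^ 3 ≠ W.c₆ ^ 2 := by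
    intro h
    have := W.c_relation
    rw [h, sub_self] at this
    exact mul_ne_zero (by norm_num) hΔ this
  obtain ⟨t, ht⟩ := exists_good_t hd hM2
  obtain ⟨c4', hc4'⟩ : ∃ c, c = CC4 W.c₄ W.c₆ (1 + M * t) M := ⟨_, rfl⟩
  obtain ⟨c6', hc6'⟩ : ∃ c, c = CC6 W.c₄ W.c₆ (1 + M * t) M := ⟨_, rfl⟩
  obtain ⟨D, hD⟩ : ∃ c, c = DD W.c₄ W.c₆ (1 + M * t) M := ⟨_, rfl⟩
  rw [← hc4', ← hc6'] at ht
  obtain ⟨u, hu⟩ : M ∣ c4' - W.c₄ := by rw [hc4']; exact CC4_congr _
  obtain ⟨v, hv⟩ : M ∣ c6' - W.c₆ := by rw [hc6']; exact CC6_congr _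
  obtain ⟨w, hw⟩ : M ∣ D - 1 := by rw [hD]; exact DD_congr _
  have hdisc : c4' ^ 3 - c6' ^ 2 = (W.c₄ ^ 3 - W.c₆ ^ 2) * D ^ 5 := by
    rw [hc4', hc6', hD]; exact CC_disc _ _ _ _
  -- the new curve
  obtain ⟨d4, hd4⟩ : ∃ d, d = -(864 * 30 * W.Δ * u) := ⟨_, rfl⟩
  obtain ⟨d6, hd6⟩ : ∃ d, d = -(48 * 30 * W.Δ * v) - 72 * 30 * W.b₂ * W.Δ * u := ⟨_, rfl⟩
  let W' : WeierstrassCurve ℤ := ⟨W.a₁, W.a₂, W.a₃, W.a₄ + d4, W.a₆ + d6⟩
  have e4 : W'.c₄ = c4' := by
    have h1 : W'.c₄ = W.c₄ - 48 * d4 := by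
      simp only [W', WeierstrassCurve.c₄, WeierstrassCurve.b₂, WeierstrassCurve.b₄]; ring
    rw [h1, hd4]
    rw [hMdef] at hu
    linear_combination -hu
  have e6 : W'.c₆ = c6' := by
    have h1 : W'.c₆ = W.c₆ + 72 * W.b₂ * d4 - 864 * d6 := by
      simp only [W', WeierstrassCurve.c₆, WeierstrassCurve.b₂, WeierstrassCurve.b₄,
        WeierstrassCurve.b₆]; ring
    rw [h1, hd4, hd6]
    rw [hMdef] at hv
    linear_combination -hv
  have eΔ : W'.Δ = W.Δ * D ^ 5 := by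
    have h1 := W'.c_relation
    have h2 := W.c_relation
    rw [e4, e6, hdisc, ← h2] at h1
    have h1728 : (1728 : ℤ) ≠ 0 := by norm_num
    apply mul_left_cancel₀ h1728
    linear_combination h1
  have hD0 : D ≠ 0 := by
    rintro h0
    rw [h0] at hw
    have h1 : M ∣ 1 := ⟨-w, by linear_combination -hw⟩
    have h2 := Int.natAbs_dvd_natAbs.mpr h1
    have h3 := Nat.le_of_dvd (by norm_num) h2
    simp only [Int.natAbs_one] at h3
    omega
  refine ⟨W', ?_, ?_, ?_, ?_⟩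
  · rw [eΔ]; exact mul_ne_zero hΔ (pow_ne_zero _ hD0)
  · -- semistability
    intro p hp hpΔ hpc
    have hpp : Prime (p : ℤ) := Nat.prime_iff_prime_int.mp hp
    rw [eΔ] at hpΔ
    rw [e4] at hpc
    by_cases hpM : (p : ℤ) ∣ M
    · have hpD : ¬ (p : ℤ) ∣ D := by
        intro h
        have h1 : (p : ℤ) ∣ D - M * w := dvd_sub h (Dvd.dvd.mul_right hpM w)
        have h2 : D - M * w = 1 := by linear_combination hw
        rw [h2] at h1
        exact hpp.not_dvd_one h1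
      have hpΔ' : (p : ℤ) ∣ W.Δ := (hpp.dvd_or_dvd hpΔ).resolve_right
        (fun h => hpD (hpp.dvd_of_dvd_pow h))
      apply hW p hp hpΔ'
      have h1 : W.c₄ = c4' - M * u := by linear_combination -hu
      rw [h1]
      exact dvd_sub hpc (Dvd.dvd.mul_right hpM u)
    · have hpn : ∀ n : ℕ, n ∣ 864 * 48 * 30 → ¬ p ∣ n := by
        intro n hn hpn
        apply hpM
        rw [hMdef]
        apply Dvd.dvd.mul_right
        have := hpn.trans hn
        exact_mod_cast this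
      have hpΔ2 : ¬ (p : ℤ) ∣ W.Δ := fun h => hpM (by rw [hMdef]; exact Dvd.dvd.mul_left h _)
      have hpD : (p : ℤ) ∣ D := hpp.dvd_of_dvd_pow ((hpp.dvd_or_dvd hpΔ).resolve_left hpΔ2)
      have hFact : Fact p.Prime := ⟨hp⟩
      let K := AlgebraicClosure (ZMod p)
      have hinj : Function.Injective (algebraMap (ZMod p) K) := (algebraMap (ZMod p) K).injective
      have hcast : ∀ n : ℕ, ¬ p ∣ n → ((n : ℕ) : K) ≠ 0 := by
        intro n hn h
        apply zmod_ne hn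
        apply hinj
        rw [map_natCast, h, map_zero]
      let φ : ℤ →+* K := (algebraMap (ZMod p) K).comp (Int.castRingHom (ZMod p))
      have hφ : ∀ a : ℤ, φ a = 0 ↔ (p : ℤ) ∣ a := by
        intro a
        rw [← ZMod.intCast_zmod_eq_zero_iff_dvd]
        simp only [φ, RingHom.comp_apply]
        constructor
        · intro h; apply hinj; rw [map_zero]; exact h
        · intro h
          change algebraMap (ZMod p) K ((a : ℤ) : ZMod p) = 0
          rw [h, map_zero]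
      have h1 : φ W.c₄ ^ 3 ≠ φ W.c₆ ^ 2 := by
        intro h
        apply hpΔ2
        have h2 : φ (1728 * W.Δ) = 0 := by
          rw [W.c_relation, map_sub, map_pow, map_pow, h, sub_self]
        rw [hφ] at h2
        rcases hpp.dvd_or_dvd h2 with h3 | h3
        · exact absurd (by exact_mod_cast h3) (hpn 1728 (by norm_num))
        · exact h3
      have h2 : DD (φ W.c₄) (φ W.c₆) (φ (1 + M * t)) (φ M) = 0 := by
        rw [← map_DD, ← hD, hφ]; exact hpD
      have h3 : CC4 (φ W.c₄) (φ W.c₆) (φ (1 + M * t)) (φ M) = 0 := by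
        rw [← map_CC4, ← hc4', hφ]; exact hpc
      have k2 : (2 : K) ≠ 0 := by exact_mod_cast hcast 2 (hpn 2 (by norm_num))
      have k3 : (3 : K) ≠ 0 := by exact_mod_cast hcast 3 (hpn 3 (by norm_num))
      have k5 : (5 : K) ≠ 0 := by exact_mod_cast hcast 5 (hpn 5 (by norm_num))
      have h4 := (common_zero k2 k3 k5 h1 h2 h3).2
      rw [hφ] at h4
      exact hpM h4
  · -- irreducibility
    apply irr3 W'
    · rw [eΔ]; exact mul_ne_zero hΔ (pow_ne_zero _ hD0)
    · rw [e4, e6]; exact ht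
  · -- congruence
    intro l hl hg hg' hl5
    have hFact : Fact l.Prime := ⟨hl⟩
    have hlp : Prime (l : ℤ) := Nat.prime_iff_prime_int.mp hl
    by_cases h30 : l ∣ 30
    · have hred : W'.reductionMod l = W.reductionMod l := by
        have h30' : ((30 : ℤ) : ZMod l) = 0 := by
          rw [ZMod.intCast_zmod_eq_zero_iff_dvd]; exact_mod_cast h30
        have hz4 : ((d4 : ℤ) : ZMod l) = 0 := by
          have : d4 = 30 * (-(864 * W.Δ * u)) := by rw [hd4]; ring
          rw [this, Int.cast_mul, h30', zero_mul]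
        have hz6 : ((d6 : ℤ) : ZMod l) = 0 := by
          have : d6 = 30 * (-(48 * W.Δ * v) - 72 * W.b₂ * W.Δ * u) := by rw [hd6]; ring
          rw [this, Int.cast_mul, h30', zero_mul]
        simp only [WeierstrassCurve.reductionMod, WeierstrassCurve.map, W']
        ext
        · rfl
        · rfl
        · rfl
        · simp only [eq_intCast, Int.cast_add, hz4, add_zero]
        · simp only [eq_intCast, Int.cast_add, hz6, add_zero]
      have : W'.apOfModel l = W.apOfModel l := by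
        rw [WeierstrassCurve.apOfModel, WeierstrassCurve.apOfModel, hred]
      rw [this, sub_self]
      exact dvd_zero _
    · have k2 : (2 : ZMod l) ≠ 0 := by
        have := zmod_ne (l := l) (n := 2) (fun h => h30 (h.trans (by norm_num)))
        exact_mod_cast this
      have k3 : (3 : ZMod l) ≠ 0 := by
        have := zmod_ne (l := l) (n := 3) (fun h => h30 (h.trans (by norm_num)))
        exact_mod_cast this
      have k5 : (5 : ZMod l) ≠ 0 := by
        have := zmod_ne (l := l) (n := 5) (fun h => h30 (h.trans (by norm_num)))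
        exact_mod_cast this
      have h1728 : (1728 : ZMod l) ≠ 0 := by
        have : (1728 : ZMod l) = 2^6 * 3^3 := by norm_num
        rw [this]; exact mul_ne_zero (pow_ne_zero _ k2) (pow_ne_zero _ k3)
      have hgΔ : ((W.Δ : ℤ) : ZMod l) ≠ 0 := by
        rw [Ne, ZMod.intCast_zmod_eq_zero_iff_dvd]; exact hg
      have hgΔ' : ((W'.Δ : ℤ) : ZMod l) ≠ 0 := by
        rw [Ne, ZMod.intCast_zmod_eq_zero_iff_dvd]; exact hg'
      rw [apOfModel_eq k2 k3 W hgΔ, apOfModel_eq k2 k3 W' hgΔ', e4, e6, hc4', hc6']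
      have m4 := map_CC4 (Int.castRingHom (ZMod l)) W.c₄ W.c₆ (1 + M * t) M
      have m6 := map_CC6 (Int.castRingHom (ZMod l)) W.c₄ W.c₆ (1 + M * t) M
      simp only [eq_intCast] at m4 m6
      rw [m4, m6]
      apply tr_congr k2 k3 k5
      · rw [ZMod.card]
        intro h
        exact hl5 ((Nat.prime_dvd_prime_iff_eq (by norm_num) hl).mp h).symm
      · intro h
        have h1 := congrArg (fun z : ℤ => (z : ZMod l)) W.c_relation
        push_cast at h1
        rw [h, sub_self] at h1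
        exact mul_ne_zero h1728 hgΔ h1
      · rw [← m4, ← m6, ← hc4', ← hc6', ← e4, ← e6]
        intro h
        have h1 := congrArg (fun z : ℤ => (z : ZMod l)) W'.c_relation
        push_cast at h1
        rw [h, sub_self] at h1
        exact mul_ne_zero h1728 hgΔ' h1

end Fermat.Agent.Switch
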