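import Fermat.Agent.Icosa.FrobC
import Fermat.Prelude.Def_FLTPrelim_Modularity

set_option autoImplicit false

/-!
# Number of points and short Weierstrass equations
-/

open WeierstrassCurve WeierstrassCurve.Affine WeierstrassCurve.Affine.Point
open Fermat.Agent.Icosa Fermat.Agent.Schoof

namespace Fermat.Agent.Switch

variable {F : Type*} [Field F]

/-- the short form -/
def short (V : WeierstrassCurve F) : WeierstrassCurve F := cur 0 (-27 * V.c₄) (-54 * V.c₆)

lemma short_eq (V : WeierstrassCurve F) (x y : F) :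
    (short V).toAffine.Equation (36*x + 3*V.b₂) (108*(2*y + V.a₁*x + V.a₃)) ↔
      11664 * 4 * (y^2 + V.a₁*x*y + V.a₃*y - (x^3 + V.a₂*x^2 + V.a₄*x + V.a₆)) = 0 := by
  rw [WeierstrassCurve.Affine.equation_iff]
  simp only [short, cur, WeierstrassCurve.c₄, WeierstrassCurve.c₆, WeierstrassCurve.b₂,
    WeierstrassCurve.b₄, WeierstrassCurve.b₆]
  constructor
  · intro h; linear_combination h
  · intro h; linear_combination h

lemma card_short (h2 : (2 : F) ≠ 0) (h3 : (3 : F) ≠ 0) (V : WeierstrassCurve F) (hV : V.Δ ≠ 0) :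
    Nat.card V.toAffine.Point = Nat.card (short V).toAffine.Point := by
  have hVe : V.IsElliptic := by
    rw [WeierstrassCurve.isElliptic_iff]; exact isUnit_iff_ne_zero.mpr hV
  have h1728 : (1728 : F) ≠ 0 := by
    have : (1728 : F) = 2^6 * 3^3 := by norm_num
    rw [this]; exact mul_ne_zero (pow_ne_zero _ h2) (pow_ne_zero _ h3)
  have hSe : (short V).IsElliptic := by
    apply cur_elliptic h2 h3
    intro h
    have h' := V.c_relation
    rw [h, sub_self] at h'
    exact mul_ne_zero h1728 hV h'
  have h36 : (36 : F) ≠ 0 := by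
    have : (36 : F) = 2^2 * 3^2 := by norm_num
    rw [this]; exact mul_ne_zero (pow_ne_zero _ h2) (pow_ne_zero _ h3)
  have h108 : (108 : F) ≠ 0 := by
    have : (108 : F) = 2^2 * 3^3 := by norm_num
    rw [this]; exact mul_ne_zero (pow_ne_zero _ h2) (pow_ne_zero _ h3)
  have hc : (11664 * 4 : F) ≠ 0 := by
    have : (11664 * 4 : F) = 2^6 * 3^6 := by norm_num
    rw [this]; exact mul_ne_zero (pow_ne_zero _ h2) (pow_ne_zero _ h3)
  have key : ∀ x y : F, V.toAffine.Nonsingular x y ↔
      (short V).toAffine.Nonsingular (36*x + 3*V.b₂) (108*(2*y + V.a₁*x + V.a₃)) := by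
    intro x y
    rw [← equation_iff_nonsingular, ← equation_iff_nonsingular, short_eq,
      WeierstrassCurve.Affine.equation_iff]
    constructor
    · intro h; rw [mul_eq_zero]; right; linear_combination h
    · intro h
      have := (mul_eq_zero.mp h).resolve_left hc
      linear_combination this
  let f : V.toAffine.Point → (short V).toAffine.Point := fun P => match P with
    | 0 => 0
    | .some x y h => .some (36*x + 3*V.b₂) (108*(2*y + V.a₁*x + V.a₃)) ((key x y).mp h)
  apply Nat.card_eq_of_bijective f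
  constructor
  · intro P Q hPQ
    match P, Q, hPQ with
    | 0, 0, _ => rfl
    | 0, .some x y h, hPQ => exact absurd hPQ (by simp [f])
    | .some x y h, 0, hPQ => exact absurd hPQ (by simp [f])
    | .some x y h, .some x' y' h', hPQ =>
      simp only [f, some.injEq] at hPQ
      obtain ⟨e1, e2⟩ := hPQ
      have hx : x = x' := by
        apply mul_left_cancel₀ h36; linear_combination e1
      subst hx
      have hy : y = y' := by
        apply mul_left_cancel₀ (mul_ne_zero h108 h2)
        linear_combination e2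
      subst hy
      rfl
  · intro Q
    match Q with
    | 0 => exact ⟨0, rfl⟩
    | .some X Y h =>
      obtain ⟨x, hx⟩ : ∃ x : F, X = 36*x + 3*V.b₂ := ⟨(X - 3*V.b₂)/36, by field_simp; ring⟩
      obtain ⟨y, hy⟩ : ∃ y : F, Y = 108*(2*y + V.a₁*x + V.a₃) :=
        ⟨(Y/108 - V.a₁*x - V.a₃)/2, by field_simp; ring⟩
      subst hx hy
      exact ⟨.some x y ((key x y).mpr h), rfl⟩

lemma apOfModel_eq {l : ℕ} [Fact l.Prime] (h2 : (2 : ZMod l) ≠ 0) (h3 : (3 : ZMod l) ≠ 0)
    (W : WeierstrassCurve ℤ) (hW : ((W.Δ : ℤ) : ZMod l) ≠ 0) :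
    W.apOfModel l = tr 0 (-27 * ((W.c₄ : ℤ) : ZMod l)) (-54 * ((W.c₆ : ℤ) : ZMod l)) := by
  rw [WeierstrassCurve.apOfModel, WeierstrassCurve.traceOfFrobenius, WeierstrassCurve.card, tr]
  have h1 := card_short h2 h3 (W.reductionMod l) (by
    rw [WeierstrassCurve.reductionMod, map_Δ]; exact hW)
  rw [h1, Nat.card_eq_fintype_card, short, WeierstrassCurve.reductionMod, map_c₄, map_c₆]
  rfl

end Fermat.Agent.Switch
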