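import Mathlib

set_option autoImplicit false

/-!
# Interpolation of integers that are congruent to a polynomial modulo a large prime power
-/

open Polynomial

namespace Fermat.Agent.Switch

lemma exists_int_factor {N : ℕ} (i j m : ℕ) (hi : i ≤ N) (hj : j ≤ N) (hm : m ≤ N) (hij : i ≠ j) :
    ∃ a : ℤ, (N.factorial : ℚ) * (((i : ℚ) - j)⁻¹ * ((m : ℚ) - j)) = a ∧
      |a| ≤ (N.factorial * N : ℕ) := by
  have hne : (i : ℤ) - j ≠ 0 := by
    intro h; apply hij; omega
  have hdvd : ((i : ℤ) - j) ∣ (N.factorial : ℤ) := by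
    rw [← Int.natAbs_dvd_natAbs, Int.natAbs_natCast]
    apply Nat.dvd_factorial
    · exact Int.natAbs_pos.mpr hne
    · omega
  obtain ⟨b, hb⟩ := hdvd
  refine ⟨b * ((m : ℤ) - j), ?_, ?_⟩
  · have hneQ : ((i : ℚ) - j) ≠ 0 := by
      have : (((i : ℤ) - j : ℤ) : ℚ) ≠ 0 := by exact_mod_cast hne
      push_cast at this; exact this
    have hbQ : (N.factorial : ℚ) = ((i : ℚ) - j) * b := by
      have := congrArg (fun z : ℤ => (z : ℚ)) hb
      push_cast at this; exact this
    rw [hbQ]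
    push_cast
    field_simp
  · rw [abs_mul]
    have h1 : |b| ≤ (N.factorial : ℤ) := by
      have h2 : |(N.factorial : ℤ)| = |(i : ℤ) - j| * |b| := by rw [hb, abs_mul]
      have h3 : 1 ≤ |(i : ℤ) - j| := Int.one_le_abs hne
      have h4 : |(N.factorial : ℤ)| = N.factorial := by simp
      rw [h4] at h2
      rw [h2]
      nlinarith [abs_nonneg b]
    have h2 : |(m : ℤ) - j| ≤ (N : ℤ) := by
      rw [abs_le]; omega
    push_cast
    exact mul_le_mul h1 h2 (abs_nonneg _) (by positivity)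

lemma exists_int_basis {N : ℕ} (S : Finset ℕ) (hS : ∀ i ∈ S, i ≤ N) {d : ℕ} (hc : S.card = d + 1)
    {i m : ℕ} (hi : i ∈ S) (hm : m ≤ N) :
    ∃ L : ℤ, ((N.factorial ^ d : ℕ) : ℚ) *
        (Lagrange.basis S (fun j : ℕ => (j : ℚ)) i).eval (m : ℚ) = L ∧
      |L| ≤ ((N.factorial * N) ^ d : ℕ) := by
  classical
  have hcard : (S.erase i).card = d := by rw [Finset.card_erase_of_mem hi, hc]; rfl
  have h : ∀ j ∈ S.erase i, ∃ a : ℤ, (N.factorial : ℚ) * (((i : ℚ) - j)⁻¹ * ((m : ℚ) - j)) = a ∧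
      |a| ≤ (N.factorial * N : ℕ) := by
    intro j hj
    obtain ⟨hij, hj'⟩ := Finset.mem_erase.mp hj
    exact exists_int_factor i j m (hS i hi) (hS j hj') hm (Ne.symm hij)
  choose! a ha hb using h
  refine ⟨∏ j ∈ S.erase i, a j, ?_, ?_⟩
  · rw [Lagrange.basis, eval_prod]
    have : ((N.factorial ^ d : ℕ) : ℚ) = ∏ j ∈ S.erase i, (N.factorial : ℚ) := by
      rw [Finset.prod_const, hcard]; push_cast; rfl
    rw [this, ← Finset.prod_mul_distrib]
    push_cast
    apply Finset.prod_congr rfl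
    intro j hj
    rw [← ha j hj]
    simp [Lagrange.basisDivisor]
  · rw [Finset.abs_prod]
    calc ∏ j ∈ S.erase i, |a j| ≤ ∏ j ∈ S.erase i, ((N.factorial * N : ℕ) : ℤ) :=
          Finset.prod_le_prod (fun j _ => abs_nonneg _) hb
      _ = ((N.factorial * N) ^ d : ℕ) := by
          rw [Finset.prod_const, hcard]; push_cast; rfl

/-- The interpolation lemma. -/
theorem interp {N d : ℕ} {q : ℤ} (S : Finset ℕ) (hS : ∀ i ∈ S, i ≤ N) (hc : S.card = d + 1)
    (f : ℤ[X]) (hf : f.natDegree ≤ d) (z : ℕ → ℤ) {m : ℕ} (hm : m ≤ N) {Z : ℕ}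
    (h1 : ∀ i ∈ S, q ∣ z i - f.eval (i : ℤ)) (h2 : q ∣ z m - f.eval (m : ℤ))
    (h3 : ∀ i ∈ S, |z i| ≤ Z) (h4 : |z m| ≤ Z)
    (hq : (((d + 2) * (N.factorial * N) ^ d * Z : ℕ) : ℤ) < q) :
    (Lagrange.interpolate S (fun j : ℕ => (j : ℚ)) (fun j => (z j : ℚ))).eval (m : ℚ) = z m := by
  classical
  set D : ℕ := N.factorial ^ d with hD
  have hL : ∀ i ∈ S, ∃ L : ℤ, (D : ℚ) *
        (Lagrange.basis S (fun j : ℕ => (j : ℚ)) i).eval (m : ℚ) = L ∧
      |L| ≤ ((N.factorial * N) ^ d : ℕ) := fun i hi => exists_int_basis S hS hc hi hm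
  choose! L hL1 hL2 using hL
  have hinj : Set.InjOn (fun j : ℕ => (j : ℚ)) S := by
    intro a _ b _ hab
    exact Nat.cast_injective hab
  -- value of the interpolation polynomial
  have e1 : (D : ℚ) * (Lagrange.interpolate S (fun j : ℕ => (j : ℚ))
      (fun j => (z j : ℚ))).eval (m : ℚ) = ((∑ i ∈ S, z i * L i : ℤ) : ℚ) := by
    rw [Lagrange.interpolate_apply, eval_finsetSum, Finset.mul_sum]
    push_cast
    apply Finset.sum_congr rfl
    intro i hi
    rw [eval_mul, eval_C, ← hL1 i hi]; ring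
  have e2 : (D : ℚ) * ((f.map (Int.castRingHom ℚ)).eval (m : ℚ)) =
      ((∑ i ∈ S, f.eval (i : ℤ) * L i : ℤ) : ℚ) := by
    have h5 : f.map (Int.castRingHom ℚ) = Lagrange.interpolate S (fun j : ℕ => (j : ℚ))
        (fun j => (f.map (Int.castRingHom ℚ)).eval (j : ℚ)) := by
      apply Lagrange.eq_interpolate hinj
      rw [hc]
      have : (f.map (Int.castRingHom ℚ)).degree ≤ (d : ℕ) :=
        (degree_map_le).trans (natDegree_le_iff_degree_le.mp hf)
      exact lt_of_le_of_lt this (by exact_mod_cast Nat.lt_succ_self d)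
    rw [h5, Lagrange.interpolate_apply, eval_finsetSum, Finset.mul_sum]
    push_cast
    apply Finset.sum_congr rfl
    intro i hi
    rw [eval_mul, eval_C, ← hL1 i hi]
    have h6 : (f.map (Int.castRingHom ℚ)).eval (i : ℚ) = (f.eval (i : ℤ) : ℤ) := by
      simp
    rw [h6]; ring
  have e3 : (f.map (Int.castRingHom ℚ)).eval (m : ℚ) = (f.eval (m : ℤ) : ℤ) := by
    simp
  have e4 : (D : ℤ) * f.eval (m : ℤ) = ∑ i ∈ S, f.eval (i : ℤ) * L i := by
    rw [e3] at e2
    exact_mod_cast e2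
  have hA : q ∣ (D : ℤ) * z m - ∑ i ∈ S, z i * L i := by
    have : (D : ℤ) * z m - ∑ i ∈ S, z i * L i =
        D * (z m - f.eval (m : ℤ)) - ∑ i ∈ S, (z i - f.eval (i : ℤ)) * L i := by
      simp only [sub_mul, Finset.sum_sub_distrib]
      rw [← e4]; ring
    rw [this]
    apply dvd_sub (Dvd.dvd.mul_left h2 _)
    exact Finset.dvd_sum fun i hi => Dvd.dvd.mul_right (h1 i hi) _
  have hB : |(D : ℤ) * z m - ∑ i ∈ S, z i * L i| < q := by
    refine lt_of_le_of_lt ?_ hq
    have hNf : 1 ≤ N.factorial := Nat.factorial_pos N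
    have h7 : |(D : ℤ) * z m| ≤ ((N.factorial * N) ^ d : ℕ) * Z := by
      rcases Nat.eq_zero_or_pos N with h0 | hN
      · -- N = 0
        have hd0 : d = 0 := by
          have : S ⊆ {0} := by
            intro i hi
            have := hS i hi
            rw [Finset.mem_singleton]; omega
          have := Finset.card_le_card this
          rw [hc, Finset.card_singleton] at this
          omega
        subst hd0
        simp only [hD, pow_zero, Nat.cast_one, one_mul]
        exact h4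
      · rw [abs_mul]
        have h8 : (D : ℤ) ≤ ((N.factorial * N) ^ d : ℕ) := by
          rw [hD]
          exact_mod_cast Nat.pow_le_pow_left (Nat.le_mul_of_pos_right _ hN) d
        have h9 : |(D : ℤ)| = D := by simp
        rw [h9]
        exact mul_le_mul h8 h4 (abs_nonneg _) (by positivity)
    have h10 : |∑ i ∈ S, z i * L i| ≤ (d + 1) * (((N.factorial * N) ^ d : ℕ) * Z) := by
      refine (Finset.abs_sum_le_sum_abs _ _).trans ?_
      have : ∑ i ∈ S, |z i * L i| ≤ ∑ _i ∈ S, ((((N.factorial * N) ^ d : ℕ) : ℤ) * Z) := by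
        apply Finset.sum_le_sum
        intro i hi
        rw [abs_mul, mul_comm]
        exact mul_le_mul (hL2 i hi) (h3 i hi) (abs_nonneg _) (by positivity)
      refine this.trans ?_
      rw [Finset.sum_const, hc]
      simp
    refine (abs_sub _ _).trans ?_
    refine (add_le_add h7 h10).trans (le_of_eq ?_)
    push_cast; ring
  have hzero : (D : ℤ) * z m - ∑ i ∈ S, z i * L i = 0 := by
    by_contra hne
    have h11 := Int.le_of_dvd (abs_pos.mpr hne) ((dvd_abs _ _).mpr hA)
    omega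
  have hDne : (D : ℚ) ≠ 0 := by
    rw [hD]; positivity
  apply mul_left_cancel₀ hDne
  rw [e1]
  have : (D : ℤ) * z m = ∑ i ∈ S, z i * L i := sub_eq_zero.mp hzero
  rw [← this]; push_cast; ring

end Fermat.Agent.Switch
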