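import Fermat.Agent.Switch.Hensel
import Fermat.Agent.Switch.Interp

set_option autoImplicit false

/-!
# If the quartic always has an integral root, it has a polynomial root
-/

open Polynomial

namespace Fermat.Agent.Switch

lemma root_bound {c s z K : ℤ} (hK : 1 ≤ K) (hc : |c| ≤ K ^ 2) (hs : |s| ≤ K ^ 3)
    (h : quart c s z = 0) : |z| ≤ 3 * K := by
  by_contra hlt
  rw [not_le] at hlt
  set a := |z| with ha
  have ha0 : 0 ≤ a := abs_nonneg z
  have e : z ^ 4 = 6 * c * z ^ 2 + 8 * s * z + 3 * c ^ 2 := by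
    unfold quart at h; linarith
  have e2 : a ^ 4 = z ^ 4 := by
    rw [ha]; exact Even.pow_abs (by decide) z
  have e3 : a ^ 2 = z ^ 2 := sq_abs z
  have h1 : c * z ^ 2 ≤ K ^ 2 * a ^ 2 := by
    rw [e3]
    exact mul_le_mul_of_nonneg_right ((le_abs_self c).trans hc) (sq_nonneg z)
  have h2 : s * z ≤ K ^ 3 * a := by
    calc s * z ≤ |s * z| := le_abs_self _
      _ = |s| * a := abs_mul _ _
      _ ≤ K ^ 3 * a := mul_le_mul_of_nonneg_right hs ha0
  have h3 : c ^ 2 ≤ K ^ 4 := by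
    calc c ^ 2 = |c| ^ 2 := (sq_abs c).symm
      _ ≤ (K ^ 2) ^ 2 := pow_le_pow_left₀ (abs_nonneg c) hc 2
      _ = K ^ 4 := by ring
  have h4 : (a - 3 * K) * (a + K) ^ 3 ≤ 0 := by
    have : (a - 3 * K) * (a + K) ^ 3 = a ^ 4 - 6 * K ^ 2 * a ^ 2 - 8 * K ^ 3 * a - 3 * K ^ 4 := by
      ring
    rw [this, e2, e]
    linarith
  have h5 : 0 < (a - 3 * K) * (a + K) ^ 3 := by
    apply mul_pos (by linarith)
    apply pow_pos; linarith
  linarith

/-- bound for values of polynomials -/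
lemma eval_bound (f : ℤ[X]) {d : ℕ} (hf : f.natDegree ≤ d) :
    ∃ B : ℤ, 0 ≤ B ∧ ∀ t : ℤ, 1 ≤ t → |f.eval t| ≤ B * t ^ d := by
  refine ⟨∑ i ∈ Finset.range (d + 1), |f.coeff i|, Finset.sum_nonneg fun i _ => abs_nonneg _, ?_⟩
  intro t ht
  rw [eval_eq_sum_range' (Nat.lt_succ_of_le hf), Finset.sum_mul]
  refine (Finset.abs_sum_le_sum_abs _ _).trans (Finset.sum_le_sum fun i hi => ?_)
  rw [abs_mul]
  apply mul_le_mul_of_nonneg_left _ (abs_nonneg _)
  rw [abs_of_nonneg (by positivity)]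
  exact pow_le_pow_right₀ ht (Nat.lt_succ_iff.mp (Finset.mem_range.mp hi))

lemma natDegree_C_mul_X_le' {R : Type*} [Semiring R] (a : R) : (C a * X).natDegree ≤ 1 := by
  simpa using natDegree_C_mul_X_pow_le a 1

lemma quart_natDegree {R : Type*} [CommRing R] {c s z : R[X]} (hc : c.natDegree ≤ 20)
    (hs : s.natDegree ≤ 30) (hz : z.natDegree ≤ 10) : (quart c s z).natDegree ≤ 40 := by
  unfold quart
  have h6 : (6 : R[X]).natDegree ≤ 0 := by
    rw [show (6 : R[X]) = C 6 by simp [map_ofNat]]; simp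
  have h8 : (8 : R[X]).natDegree ≤ 0 := by
    rw [show (8 : R[X]) = C 8 by simp [map_ofNat]]; simp
  have h3 : (3 : R[X]).natDegree ≤ 0 := by
    rw [show (3 : R[X]) = C 3 by simp [map_ofNat]]; simp
  have t1 : (z^4).natDegree ≤ 40 := natDegree_pow_le_of_le 4 hz
  have t2 : (6*c*z^2).natDegree ≤ 40 := natDegree_mul_le_of_le (m := 20) (n := 20)
    (natDegree_mul_le_of_le (m := 0) h6 hc) (natDegree_pow_le_of_le 2 hz)
  have t3 : (8*s*z).natDegree ≤ 40 := natDegree_mul_le_of_le (m := 30) (n := 10)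
    (natDegree_mul_le_of_le (m := 0) h8 hs) hz
  have t4 : (3*c^2).natDegree ≤ 40 := natDegree_mul_le_of_le (m := 0) (n := 40) h3
    (natDegree_pow_le_of_le 2 hc)
  have t5 := natDegree_sub_le_of_le (natDegree_sub_le_of_le (natDegree_sub_le_of_le t1 t2) t3) t4
  simpa using t5

lemma card_roots_quart {k : Type*} [Field k] [Fintype k] [DecidableEq k] (c s : k) :
    (Finset.univ.filter fun y : k => quart c s y = 0).card ≤ 4 := by
  let q : k[X] := X^4 - C (6*c) * X^2 - C (8*s) * X - C (3*c^2)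
  have hq : q.natDegree = 4 := by simp only [q]; compute_degree!
  have hq0 : q ≠ 0 := by
    intro h; rw [h] at hq; simp at hq
  have : (Finset.univ.filter fun y : k => quart c s y = 0) ⊆ q.roots.toFinset := by
    intro y hy
    rw [Finset.mem_filter] at hy
    rw [Multiset.mem_toFinset, mem_roots hq0, IsRoot.def]
    rw [← hy.2]
    simp only [q, quart, eval_sub, eval_mul, eval_pow, eval_X, eval_C]
  calc _ ≤ q.roots.toFinset.card := Finset.card_le_card this
    _ ≤ Multiset.card q.roots := Multiset.toFinset_card_le _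
    _ ≤ q.natDegree := card_roots' q
    _ = 4 := hq

/-- From integral roots at all natural numbers to a polynomial root. -/
theorem exists_poly_root (c s : ℤ[X]) (hc : c.natDegree ≤ 20) (hs : s.natDegree ≤ 30)
    (hd : c.eval 0 ^ 3 - s.eval 0 ^ 2 ≠ 0)
    (h : ∀ t : ℕ, ∃ z : ℤ, quart (c.eval (t : ℤ)) (s.eval (t : ℤ)) z = 0) :
    ∃ Q : ℚ[X], Q.natDegree ≤ 10 ∧
      quart (c.map (Int.castRingHom ℚ)) (s.map (Int.castRingHom ℚ)) Q = 0 := by
  classical
  obtain ⟨N, hN⟩ : ∃ N : ℕ, N = 161 := ⟨_, rfl⟩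
  obtain ⟨B1, hB1, hB1'⟩ := eval_bound c hc
  obtain ⟨B2, hB2, hB2'⟩ := eval_bound s hs
  set B0 : ℕ := (B1 + B2 + 1).toNat with hB0
  have hB0' : (B0 : ℤ) = B1 + B2 + 1 := Int.toNat_of_nonneg (by linarith)
  have hbound : ∀ t : ℤ, 1 ≤ t → ∀ z : ℤ, quart (c.eval t) (s.eval t) z = 0 →
      |z| ≤ 3 * (B0 * t ^ 10) := by
    intro t ht z hz
    have hB01 : (1 : ℤ) ≤ B0 := by linarith
    apply root_bound _ _ _ hz
    · have : (1 : ℤ) ≤ t ^ 10 := one_le_pow₀ ht
      nlinarith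
    · refine (hB1' t ht).trans ?_
      rw [mul_pow, ← pow_mul]
      apply mul_le_mul_of_nonneg_right _ (by positivity)
      nlinarith
    · refine (hB2' t ht).trans ?_
      rw [mul_pow, ← pow_mul]
      apply mul_le_mul_of_nonneg_right _ (by positivity)
      have h1 : (B0 : ℤ) ≤ B0 ^ 3 := by
        nlinarith [mul_nonneg (sub_nonneg.mpr hB01) (sub_nonneg.mpr hB01), sq_nonneg (B0 : ℤ)]
      linarith
  -- choice of the prime
  set K1 : ℕ := (10 + 2) * (N.factorial * N) ^ 10 * (3 * (B0 * N ^ 10)) with hK1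
  obtain ⟨p, hp1, hp⟩ := Nat.exists_infinite_primes
    (K1 + 7 + (c.eval 0 ^ 3 - s.eval 0 ^ 2).natAbs + 1)
  have hpp : Prime (p : ℤ) := Nat.prime_iff_prime_int.mp hp
  have hFact : Fact p.Prime := ⟨hp⟩
  have hp6 : ¬ (p : ℤ) ∣ 6 := by
    intro h
    have := Int.le_of_dvd (by norm_num) h
    omega
  have hpd : ¬ (p : ℤ) ∣ c.eval 0 ^ 3 - s.eval 0 ^ 2 := by
    intro h
    have h1 := Int.natAbs_dvd_natAbs.mpr h
    have h2 := Nat.le_of_dvd (Int.natAbs_pos.mpr hd) h1
    simp only [Int.natAbs_natCast] at h2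
    omega
  -- choice of the roots
  have hz : ∀ m : ℕ, ∃ z : ℤ, quart (c.eval ((p : ℤ) * m)) (s.eval ((p : ℤ) * m)) z = 0 := by
    intro m
    have := h (p * m)
    push_cast at this
    exact this
  choose z hz using hz
  have hzb : ∀ m : ℕ, 1 ≤ m → m ≤ N → |z m| ≤ ((3 * (B0 * (p * N) ^ 10) : ℕ) : ℤ) := by
    intro m hm1 hm2
    have hpm : (1 : ℤ) ≤ (p : ℤ) * m := by
      have h1 : 1 ≤ p * m := Nat.mul_pos hp.pos hm1
      exact_mod_cast h1
    refine (hbound _ hpm _ (hz m)).trans ?_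
    push_cast
    have h1 : ((p : ℤ) * m) ^ 10 ≤ ((p : ℤ) * N) ^ 10 := by
      apply pow_le_pow_left₀ (by linarith)
      apply mul_le_mul_of_nonneg_left _ (by positivity)
      exact_mod_cast hm2
    have h2 : (B0 : ℤ) * ((p : ℤ) * m) ^ 10 ≤ (B0 : ℤ) * ((p : ℤ) * N) ^ 10 :=
      mul_le_mul_of_nonneg_left h1 (by positivity)
    linarith
  -- colours
  let T : Finset (ZMod p) := Finset.univ.filter fun y =>
    quart ((c.eval 0 : ℤ) : ZMod p) ((s.eval 0 : ℤ) : ZMod p) y = 0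
  have hT : T.card ≤ 4 := card_roots_quart _ _
  have hev : ∀ (f : ℤ[X]) (m : ℕ), ((f.eval ((p : ℤ) * m) : ℤ) : ZMod p) = (f.eval 0 : ℤ) := by
    intro f m
    rw [ZMod.intCast_eq_intCast_iff_dvd_sub]
    have h1 := sub_dvd_eval_sub (0 : ℤ) ((p : ℤ) * m) f
    exact (Dvd.intro (-(m : ℤ)) (by ring) : (p : ℤ) ∣ 0 - p * m).trans h1
  have hmaps : ∀ m ∈ Finset.Icc 1 N, ((z m : ℤ) : ZMod p) ∈ T := by
    intro m _
    rw [Finset.mem_filter]
    refine ⟨Finset.mem_univ _, ?_⟩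
    have h1 := congrArg (Int.castRingHom (ZMod p)) (hz m)
    rw [map_quart, map_zero] at h1
    simp only [eq_intCast, hev] at h1
    exact h1
  obtain ⟨y, hy, hcard⟩ := Finset.exists_lt_card_fiber_of_mul_lt_card_of_maps_to (n := 40) hmaps
    (by rw [Nat.card_Icc]; omega)
  set S := (Finset.Icc 1 N).filter fun m => ((z m : ℤ) : ZMod p) = y with hS
  have hSN : ∀ i ∈ S, 1 ≤ i ∧ i ≤ N := by
    intro i hi
    exact Finset.mem_Icc.mp (Finset.mem_filter.mp hi).1
  obtain ⟨z0, rfl⟩ : ∃ z0 : ℤ, ((z0 : ℤ) : ZMod p) = y := ⟨y.val, by simp⟩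
  have hz0 : (p : ℤ) ∣ quart (c.eval 0) (s.eval 0) z0 := by
    rw [← ZMod.intCast_zmod_eq_zero_iff_dvd]
    have h1 := map_quart (Int.castRingHom (ZMod p)) (c.eval 0) (s.eval 0) z0
    simp only [eq_intCast] at h1
    rw [h1]
    exact (Finset.mem_filter.mp hy).2
  have hSz : ∀ i ∈ S, (p : ℤ) ∣ z i - z0 := by
    intro i hi
    have h1 := (Finset.mem_filter.mp hi).2
    rw [← ZMod.intCast_zmod_eq_zero_iff_dvd]
    push_cast
    rw [h1, sub_self]
  obtain ⟨P, hP, hP'⟩ := exists_hensel hpp hp6 hpd hz0 10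
  -- polynomial in `m`
  set f : ℤ[X] := P.comp (C (p : ℤ) * X) with hf
  have hfd : f.natDegree ≤ 10 := by
    refine natDegree_comp_le.trans ?_
    have : (C (p : ℤ) * X : ℤ[X]).natDegree ≤ 1 := natDegree_C_mul_X_le' _
    calc P.natDegree * (C (p : ℤ) * X : ℤ[X]).natDegree ≤ 10 * 1 := Nat.mul_le_mul hP this
      _ = 10 := rfl
  have hfe : ∀ i ∈ S, (p : ℤ) ^ 11 ∣ z i - f.eval (i : ℤ) := by
    intro i hi
    have := hP' i (z i) (hz i) (hSz i hi)
    rw [hf, eval_comp, eval_mul, eval_C, eval_X]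
    exact this
  obtain ⟨S0, hS0, hS0c⟩ := Finset.exists_subset_card_eq (s := S) (n := 11) (by omega)
  set Q0 : ℚ[X] := Lagrange.interpolate S0 (fun j : ℕ => (j : ℚ)) (fun j => (z j : ℚ)) with hQ0
  have hQ0e : ∀ m ∈ S, Q0.eval (m : ℚ) = z m := by
    intro m hm
    refine interp (N := N) (d := 10) (q := (p : ℤ) ^ 11) S0 (fun i hi => (hSN i (hS0 hi)).2) hS0c f
      hfd z (hSN m hm).2 (Z := 3 * (B0 * (p * N) ^ 10)) (fun i hi => hfe i (hS0 hi)) (hfe m hm)
      (fun i hi => hzb i (hSN i (hS0 hi)).1 (hSN i (hS0 hi)).2) (hzb m (hSN m hm).1 (hSN m hm).2) ?_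
    have h1 : (10 + 2) * (N.factorial * N) ^ 10 * (3 * (B0 * (p * N) ^ 10)) = K1 * p ^ 10 := by
      rw [hK1, mul_pow p N 10]; ring
    rw [h1]
    have h2 : K1 * p ^ 10 < p ^ 11 := by
      rw [pow_succ' p 10]
      exact Nat.mul_lt_mul_of_pos_right (by omega) (pow_pos hp.pos 10)
    exact_mod_cast h2
  have hQ0d : Q0.natDegree ≤ 10 := by
    have hinj : Set.InjOn (fun j : ℕ => (j : ℚ)) S0 := by
      intro a _ b _ hab
      exact Nat.cast_injective hab
    have h1 := Lagrange.degree_interpolate_le (r := fun j => (z j : ℚ)) hinj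
    rw [hS0c] at h1
    exact natDegree_le_of_degree_le h1
  set g : ℚ[X] := C (p : ℚ) * X with hg
  have hgd : g.natDegree ≤ 1 := natDegree_C_mul_X_le' _
  set c' := (c.map (Int.castRingHom ℚ)).comp g with hc'
  set s' := (s.map (Int.castRingHom ℚ)).comp g with hs'
  have hc'd : c'.natDegree ≤ 20 := by
    refine natDegree_comp_le.trans ?_
    calc _ ≤ 20 * 1 := Nat.mul_le_mul (natDegree_map_le.trans hc) hgd
      _ = 20 := rfl
  have hs'd : s'.natDegree ≤ 30 := by
    refine natDegree_comp_le.trans ?_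
    calc _ ≤ 30 * 1 := Nat.mul_le_mul (natDegree_map_le.trans hs) hgd
      _ = 30 := rfl
  have hG : quart c' s' Q0 = 0 := by
    apply eq_zero_of_natDegree_lt_card_of_eval_eq_zero' _ (S.image (fun j : ℕ => (j : ℚ)))
    · intro x hx
      obtain ⟨m, hm, rfl⟩ := Finset.mem_image.mp hx
      have h1 := map_quart (evalRingHom (m : ℚ)) c' s' Q0
      simp only [coe_evalRingHom] at h1
      rw [h1, hQ0e m hm, hc', hs', eval_comp, eval_comp, hg, eval_mul, eval_C, eval_X]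
      have h2 : ∀ f : ℤ[X], (f.map (Int.castRingHom ℚ)).eval ((p : ℚ) * m) =
          ((f.eval ((p : ℤ) * m) : ℤ) : ℚ) := by
        intro f
        have := eval_intCast_map (Int.castRingHom ℚ) f ((p : ℤ) * m)
        push_cast at this
        simpa using this
      rw [h2, h2]
      have h3 := congrArg (Int.castRingHom ℚ) (hz m)
      rw [map_quart, map_zero] at h3
      exact h3
    · rw [Finset.card_image_of_injective _ Nat.cast_injective]
      exact lt_of_le_of_lt (quart_natDegree hc'd hs'd hQ0d) hcard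
  set g' : ℚ[X] := C ((p : ℚ)⁻¹) * X with hg'
  have hgg : g.comp g' = X := by
    rw [hg, hg', mul_comp, C_comp, X_comp, ← mul_assoc, ← C_mul,
      mul_inv_cancel₀ (by exact_mod_cast hp.ne_zero), C_1, one_mul]
  refine ⟨Q0.comp g', ?_, ?_⟩
  · refine natDegree_comp_le.trans ?_
    calc _ ≤ 10 * 1 := Nat.mul_le_mul hQ0d (natDegree_C_mul_X_le' _)
      _ = 10 := rfl
  · have h1 := congrArg (fun q : ℚ[X] => q.comp g') hG
    simp only [zero_comp] at h1
    have h2 := map_quart (compRingHom g') c' s' Q0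
    simp only [coe_compRingHom_apply] at h2
    rw [h2, hc', hs', comp_assoc, comp_assoc, hgg, comp_X, comp_X] at h1
    exact h1

end Fermat.Agent.Switch
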