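import Fermat.Agent.Switch.NoPoly
import Fermat.Agent.Switch.Window
import Fermat.Agent.Icosa.Exist

set_option autoImplicit false

/-!
# Specialisation of the family
-/

open Polynomial
open Fermat.Agent.Icosa

namespace Fermat.Agent.Switch

lemma bezout_HT {R : Type*} [CommRing R] (X Y : R) :
    (2022161*Y^5 - 1055557719*X*Y^4 - 20237108822*X^2*Y^3 - 103588896*X^3*Y^2
      - 20237705983*X^4*Y + 950431323*X^5) * H4 X Y +
    (2022161*Y^3 + 461063031*X*Y^2 + 1001301767*X^2*Y - 455818677*X^3) * T6 X Y =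
    2^4*3^2*5^10 * X^9 := by
  unfold H4 T6; ring

/-- No common zeros in the family. -/
theorem common_zero {k : Type*} [Field k] [IsAlgClosed k] (h2 : (2 : k) ≠ 0) (h3 : (3 : k) ≠ 0)
    (h5 : (5 : k) ≠ 0) {c4 c6 l m : k} (hd : c4^3 ≠ c6^2) (hD : DD c4 c6 l m = 0)
    (hC : CC4 c4 c6 l m = 0) : l = 0 ∧ m = 0 := by
  obtain ⟨ζ, hζ⟩ : ∃ ζ : k, ζ^4 + ζ^3 + ζ^2 + ζ + 1 = 0 := by
    obtain ⟨ζ, hζ⟩ := IsAlgClosed.exists_root (X^4 + X^3 + X^2 + X + 1 : k[X]) (by
      have : (X^4 + X^3 + X^2 + X + 1 : k[X]).degree = 4 := by compute_degree!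
      rw [this]; norm_num)
    exact ⟨ζ, by simpa using hζ⟩
  obtain ⟨p, hH, hT⟩ := exists_param hζ h2 h3 h5 hd
  have hC6 : CC6 c4 c6 l m = 0 := by
    have := CC_disc c4 c6 l m
    rw [hD, hC] at this
    have h' : CC6 c4 c6 l m ^ 2 = 0 := by linear_combination -this
    exact pow_eq_zero_iff (by norm_num) |>.mp h'
  have e1 := Hp_Ph l m p
  have e2 := Tp_Ph l m p
  rw [hH, hT, hC] at e1
  rw [hH, hT, hC6] at e2
  rw [Hp] at e1
  rw [Tp] at e2
  have hX : (Ph l m p).1 ^ 5 = 0 := by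
    have := bezout_HT ((Ph l m p).1 ^ 5) ((Ph l m p).2 ^ 5)
    rw [e1, e2, mul_zero, mul_zero, add_zero] at this
    have hN : (2^4*3^2*5^10 : k) ≠ 0 :=
      mul_ne_zero (mul_ne_zero (pow_ne_zero _ h2) (pow_ne_zero _ h3)) (pow_ne_zero _ h5)
    exact pow_eq_zero_iff (by norm_num) |>.mp ((mul_eq_zero.mp this.symm).resolve_left hN)
  have hY : (Ph l m p).2 ^ 5 = 0 := by
    rw [hX] at e1
    have : ((Ph l m p).2 ^ 5) ^ 4 = 0 := by
      unfold H4 at e1; linear_combination e1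
    exact pow_eq_zero_iff (by norm_num) |>.mp this
  have hX' := pow_eq_zero_iff (by norm_num) |>.mp hX
  have hY' := pow_eq_zero_iff (by norm_num) |>.mp hY
  simp only [Ph] at hX' hY'
  have hdisc := H4_T6 (p.1^5) (p.2^5)
  have hHp : H4 (p.1^5) (p.2^5) = c4 := hH
  have hTp : T6 (p.1^5) (p.2^5) = c6 := hT
  rw [hHp, hTp] at hdisc
  have hne : -1728 * p.1^5 * p.2^5 * Q2 (p.1^5) (p.2^5) ^ 5 ≠ 0 := by
    rw [← hdisc]; exact sub_ne_zero.mpr hd
  have hp1 : p.1 ≠ 0 := by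
    intro h; apply hne; rw [h]; ring
  have hp2 : p.2 ≠ 0 := by
    intro h; apply hne; rw [h]; ring
  have hQ : Q2 (p.1^5) (p.2^5) ≠ 0 := by
    intro h; apply hne; rw [h]; ring
  have a1 := (mul_eq_zero.mp hX').resolve_left hp1
  have a2 := (mul_eq_zero.mp hY').resolve_left hp2
  have hm : m = 0 := by
    have h12 : (12 : k) ≠ 0 := by
      have : (12 : k) = 2^2 * 3 := by norm_num
      rw [this]; exact mul_ne_zero (pow_ne_zero _ h2) h3
    have : (12 * Q2 (p.1^5) (p.2^5)) * m = 0 := by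
      unfold FA at a1; unfold FB at a2; unfold Q2
      linear_combination a1 - a2
    exact (mul_eq_zero.mp this).resolve_left (mul_ne_zero h12 hQ)
  refine ⟨?_, hm⟩
  rw [hm] at a1
  linear_combination a1

section deg

variable {R : Type*} [CommRing R] (a b M : R)

lemma CC4_natDegree : (CC4 (C a) (C b) (1 + C M * X) (C M)).natDegree ≤ 20 := by
  unfold CC4 CC4_0 CC4_1 CC4_2
  compute_degree

lemma CC6_natDegree : (CC6 (C a) (C b) (1 + C M * X) (C M)).natDegree ≤ 30 := by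
  unfold CC6 CC6_0 CC6_1 CC6_2 CC6_3
  compute_degree

lemma DD_natDegree_le : (DD (C a) (C b) (1 + C M * X) (C M)).natDegree ≤ 12 := by
  unfold DD
  compute_degree

lemma DD_coeff : (DD (C a) (C b) (1 + C M * X) (C M)).coeff 12 = M^12 := by
  unfold DD
  compute_degree
  all_goals norm_num

end deg

end Fermat.Agent.Switch
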