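import Mathlib

set_option autoImplicit false

/-!
# The 3-division quartic and Hensel's lemma
-/

open Polynomial

namespace Fermat.Agent.Switch

section quart

variable {R : Type*} [CommRing R]

/-- the quartic whose roots describe the points of order 3. -/
def quart (c s z : R) : R := z^4 - 6*c*z^2 - 8*s*z - 3*c^2

/-- derivative -/
def dquart (c s z : R) : R := 4*z^3 - 12*c*z - 8*s

lemma quart_sub (c s z h : R) : quart c s (z - h) =
    quart c s z - h * dquart c s z + h^2 * (6*z^2 - 4*z*h + h^2 - 6*c) := by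
  unfold quart dquart; ring

lemma map_quart {S : Type*} [CommRing S] (φ : R →+* S) (c s z : R) :
    φ (quart c s z) = quart (φ c) (φ s) (φ z) := by
  simp only [quart, map_sub, map_mul, map_pow, map_ofNat]

lemma map_dquart {S : Type*} [CommRing S] (φ : R →+* S) (c s z : R) :
    φ (dquart c s z) = dquart (φ c) (φ s) (φ z) := by
  simp only [dquart, map_sub, map_mul, map_pow, map_ofNat]

/-- The key identity. -/
lemma quart_key (c s z : R) : (c - z^2)^3 * (z^2 - 9*c) - 64 * z^2 * (c^3 - s^2) =
    -(quart c s z) * (z^4 - 6*c*z^2 + 8*s*z - 3*c^2) := by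
  unfold quart; ring

end quart

/-- Roots of the quartic are simple. -/
lemma dquart_ne_zero {k : Type*} [Field k] (h2 : (2 : k) ≠ 0) (h3 : (3 : k) ≠ 0) {c s z : k}
    (hd : c^3 ≠ s^2) (h : quart c s z = 0) : dquart c s z ≠ 0 := by
  intro h'
  unfold quart at h
  unfold dquart at h'
  have h4 : (4 : k) ≠ 0 := by
    have : (4 : k) = 2^2 := by norm_num
    rw [this]; exact pow_ne_zero _ h2
  have e1 : z^3 = 3*c*z + 2*s := by
    apply mul_left_cancel₀ h4
    linear_combination h'
  have e2 : c*z^2 + 2*s*z + c^2 = 0 := by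
    have : (3 : k) * (c*z^2 + 2*s*z + c^2) = 0 := by
      linear_combination z * e1 - h
    exact (mul_eq_zero.mp this).resolve_left h3
  have e3 : s*z^2 + 2*c^2*z + c*s = 0 := by
    have : (2 : k) * (s*z^2 + 2*c^2*z + c*s) = 0 := by
      linear_combination z * e2 - c * e1
    exact (mul_eq_zero.mp this).resolve_left h2
  have e4 : z = 0 := by
    have : (2 * (c^3 - s^2)) * z = 0 := by
      linear_combination c * e3 - s * e2
    exact (mul_eq_zero.mp this).resolve_left (mul_ne_zero h2 (sub_ne_zero.mpr hd))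
  rw [e4] at e1 e2
  have hs : s = 0 := by
    have : (2 : k) * s = 0 := by linear_combination -e1
    exact (mul_eq_zero.mp this).resolve_left h2
  have hc : c = 0 := by
    have : c^2 = 0 := by linear_combination e2
    exact pow_eq_zero_iff (by norm_num) |>.mp this
  apply hd
  rw [hs, hc]; ring

section hensel

variable (p : ℤ)

/-- the ideal `(p, T)` -/
noncomputable def II : Ideal ℤ[X] := Ideal.span {C p, X}

lemma mem_II {f : ℤ[X]} (h : p ∣ f.eval 0) : f ∈ II p := by
  obtain ⟨a, ha⟩ := h
  have : f = C p * C a + X * f.divX := by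
    conv_lhs => rw [← divX_mul_X_add f]
    rw [coeff_zero_eq_eval_zero, ha, C_mul]; ring
  rw [this]
  apply Ideal.add_mem
  · exact Ideal.mul_mem_right _ _ (Ideal.subset_span (by simp))
  · exact Ideal.mul_mem_right _ _ (Ideal.subset_span (by simp))

lemma eval_of_mem {f : ℤ[X]} {n : ℕ} (h : f ∈ II p ^ n) (m : ℤ) : p ^ n ∣ f.eval (p * m) := by
  have h1 := Ideal.mem_map_of_mem (evalRingHom (p * m)) h
  rw [Ideal.map_pow] at h1
  have h2 : Ideal.map (evalRingHom (p * m)) (II p) ≤ Ideal.span {p} := by
    rw [II, Ideal.map_span, Ideal.span_le]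
    rintro x ⟨y, hy, rfl⟩
    simp only [Set.mem_insert_iff, Set.mem_singleton_iff] at hy
    rcases hy with rfl | rfl
    · simp only [coe_evalRingHom, eval_C]
      exact Ideal.subset_span rfl
    · simp only [coe_evalRingHom, eval_X, SetLike.mem_coe]
      exact Ideal.mem_span_singleton.mpr (Dvd.intro m rfl)
  have h3 := Ideal.pow_right_mono h2 n h1
  rw [Ideal.span_singleton_pow, Ideal.mem_span_singleton] at h3
  simpa using h3

variable {p}

lemma exists_approx {c s : ℤ[X]} {z0 u : ℤ} (h0 : p ∣ quart (c.eval 0) (s.eval 0) z0)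
    (hu : p ∣ 1 - u * dquart (c.eval 0) (s.eval 0) z0) (n : ℕ) :
    ∃ P : ℤ[X], p ∣ P.eval 0 - z0 ∧ quart c s P ∈ II p ^ (n + 1) := by
  induction n with
  | zero =>
    refine ⟨C z0, by simp, ?_⟩
    rw [zero_add, pow_one]
    apply mem_II
    have := map_quart (evalRingHom 0) c s (C z0)
    simp only [coe_evalRingHom, eval_C] at this
    rw [this]
    exact h0
  | succ n ih =>
    obtain ⟨P, hP, hPm⟩ := ih
    have hPI : quart c s P ∈ II p := Ideal.pow_le_self (Nat.succ_ne_zero n) hPm
    have hq0 : p ∣ (quart c s P).eval 0 := by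
      have := eval_of_mem p (n := 1) (by rwa [pow_one]) 0
      simpa using this
    refine ⟨P - C u * quart c s P, ?_, ?_⟩
    · rw [eval_sub, eval_mul, eval_C]
      have : P.eval 0 - u * (quart c s P).eval 0 - z0 =
        (P.eval 0 - z0) - u * (quart c s P).eval 0 := by ring
      rw [this]
      exact dvd_sub hP (Dvd.dvd.mul_left hq0 u)
    · rw [quart_sub]
      have e : quart c s P - C u * quart c s P * dquart c s P +
          (C u * quart c s P)^2 * (6*P^2 - 4*P*(C u * quart c s P) +
            (C u * quart c s P)^2 - 6*c) =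
          quart c s P * (1 - C u * dquart c s P) + (quart c s P * quart c s P) *
            (C u ^ 2 * (6*P^2 - 4*P*(C u * quart c s P) +
            (C u * quart c s P)^2 - 6*c)) := by ring
      rw [e]
      apply Ideal.add_mem
      · rw [pow_succ (II p) (n + 1)]
        apply Ideal.mul_mem_mul hPm
        apply mem_II
        rw [eval_sub, eval_one, eval_mul, eval_C]
        have h1 := map_dquart (evalRingHom 0) c s P
        simp only [coe_evalRingHom] at h1
        rw [h1]
        have h2 : 1 - u * dquart (c.eval 0) (s.eval 0) (P.eval 0) =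
            (1 - u * dquart (c.eval 0) (s.eval 0) z0) - u * (P.eval 0 - z0) *
              (4 * (P.eval 0 ^ 2 + P.eval 0 * z0 + z0 ^ 2) - 12 * c.eval 0) := by
          unfold dquart; ring
        rw [h2]
        exact dvd_sub hu (Dvd.dvd.mul_right (Dvd.dvd.mul_left hP u) _)
      · apply Ideal.mul_mem_right
        rw [pow_succ (II p) (n + 1)]
        exact Ideal.mul_mem_mul hPm hPI

/-- Hensel's lemma, in the form needed. -/
theorem exists_hensel (hp : Prime p) {c s : ℤ[X]} {z0 : ℤ} (h6 : ¬ p ∣ 6)
    (hd : ¬ p ∣ c.eval 0 ^ 3 - s.eval 0 ^ 2)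
    (h0 : p ∣ quart (c.eval 0) (s.eval 0) z0) (d : ℕ) :
    ∃ P : ℤ[X], P.natDegree ≤ d ∧ ∀ m z : ℤ, quart (c.eval (p * m)) (s.eval (p * m)) z = 0 →
      p ∣ z - z0 → p ^ (d + 1) ∣ z - P.eval (p * m) := by
  have hpn : Fact (p.natAbs.Prime) := ⟨Int.prime_iff_natAbs_prime.mp hp⟩
  have hz : ∀ a : ℤ, ((a : ZMod p.natAbs) = 0 ↔ p ∣ a) := by
    intro a
    rw [ZMod.intCast_zmod_eq_zero_iff_dvd]
    exact Int.natAbs_dvd
  have hdq : ¬ p ∣ dquart (c.eval 0) (s.eval 0) z0 := by
    rw [← hz]
    have e := map_dquart (Int.castRingHom (ZMod p.natAbs)) (c.eval 0) (s.eval 0) z0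
    simp only [eq_intCast] at e
    rw [e]
    apply dquart_ne_zero
    · intro h
      apply h6
      rw [← hz]
      push_cast
      have : (6 : ZMod p.natAbs) = 2 * 3 := by norm_num
      rw [this, h, zero_mul]
    · intro h
      apply h6
      rw [← hz]
      push_cast
      have : (6 : ZMod p.natAbs) = 2 * 3 := by norm_num
      rw [this, h, mul_zero]
    · intro h
      apply hd
      rw [← hz]
      push_cast
      rw [h, sub_self]
    · rw [← hz] at h0
      have e := map_quart (Int.castRingHom (ZMod p.natAbs)) (c.eval 0) (s.eval 0) z0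
      simp only [eq_intCast] at e
      rw [← e]; exact h0
  obtain ⟨u, hu⟩ : ∃ u : ℤ, p ∣ 1 - u * dquart (c.eval 0) (s.eval 0) z0 := by
    have hcop : IsCoprime p (dquart (c.eval 0) (s.eval 0) z0) :=
      (Prime.coprime_iff_not_dvd hp).mpr hdq
    obtain ⟨a, b, hab⟩ := hcop
    exact ⟨b, a, by linear_combination -hab⟩
  obtain ⟨P, hP, hPm⟩ := exists_approx h0 hu d
  refine ⟨P %ₘ X ^ (d + 1), ?_, ?_⟩
  · have := natDegree_modByMonic_lt P (monic_X_pow (d + 1)) (by
      intro h
      have := congrArg natDegree h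
      simp at this)
    rw [natDegree_X_pow] at this
    omega
  · intro m z hz0 hzz
    set x := p * m with hx
    have e1 : p ^ (d + 1) ∣ P.eval x - (P %ₘ X ^ (d + 1)).eval x := by
      have h1 : P.eval x - (P %ₘ X ^ (d + 1)).eval x = x ^ (d + 1) * (P /ₘ X ^ (d + 1)).eval x := by
        conv_lhs => enter [1]; rw [← modByMonic_add_div P (X ^ (d + 1))]
        rw [eval_add, eval_mul, eval_pow, eval_X]; ring
      rw [h1, hx, mul_pow]
      exact Dvd.dvd.mul_right (Dvd.intro _ rfl) _
    have e2 : p ^ (d + 1) ∣ quart (c.eval x) (s.eval x) (P.eval x) := by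
      have h1 := eval_of_mem p hPm m
      have h2 := map_quart (evalRingHom (p * m)) c s P
      simp only [coe_evalRingHom] at h2
      rw [h2] at h1
      exact h1
    have e3 : p ∣ P.eval x - P.eval 0 := by
      have := sub_dvd_eval_sub x 0 P
      rw [sub_zero] at this
      exact (Dvd.intro m rfl : p ∣ x).trans this
    have e4 : p ∣ c.eval x - c.eval 0 := by
      have := sub_dvd_eval_sub x 0 c
      rw [sub_zero] at this
      exact (Dvd.intro m rfl : p ∣ x).trans this
    have e5 : p ∣ s.eval x - s.eval 0 := by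
      have := sub_dvd_eval_sub x 0 s
      rw [sub_zero] at this
      exact (Dvd.intro m rfl : p ∣ x).trans this
    -- factor
    set y := P.eval x with hy
    have e6 : quart (c.eval x) (s.eval x) z - quart (c.eval x) (s.eval x) y = (z - y) *
        (dquart (c.eval x) (s.eval x) y + (z - y) * (6*y^2 + 4*y*(z-y) + (z-y)^2 - 6*c.eval x)) := by
      unfold quart dquart; ring
    have e7 : ¬ p ∣ (dquart (c.eval x) (s.eval x) y +
        (z - y) * (6*y^2 + 4*y*(z-y) + (z-y)^2 - 6*c.eval x)) := by
      intro h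
      apply hdq
      have hzy : p ∣ z - y := by
        have : z - y = (z - z0) - (y - P.eval 0) - (P.eval 0 - z0) := by ring
        rw [this]
        exact dvd_sub (dvd_sub hzz e3) hP
      have hyz : p ∣ y - z0 := by
        have : y - z0 = (y - P.eval 0) + (P.eval 0 - z0) := by ring
        rw [this]; exact dvd_add e3 hP
      have h8 : dquart (c.eval 0) (s.eval 0) z0 = (dquart (c.eval x) (s.eval x) y +
          (z - y) * (6*y^2 + 4*y*(z-y) + (z-y)^2 - 6*c.eval x)) -
          (z - y) * (6*y^2 + 4*y*(z-y) + (z-y)^2 - 6*c.eval x) -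
          (y - z0) * (4 * (y^2 + y*z0 + z0^2) - 12 * c.eval x) +
          (c.eval x - c.eval 0) * (12 * z0) + (s.eval x - s.eval 0) * 8 := by
        unfold dquart; ring
      rw [h8]
      exact dvd_add (dvd_add (dvd_sub (dvd_sub h (Dvd.dvd.mul_right hzy _))
        (Dvd.dvd.mul_right hyz _)) (Dvd.dvd.mul_right e4 _)) (Dvd.dvd.mul_right e5 _)
    have e8 : p ^ (d + 1) ∣ z - y := by
      rw [hz0, zero_sub] at e6
      have h9 := (dvd_neg.mpr e2)
      rw [e6] at h9
      exact (Prime.coprime_iff_not_dvd hp |>.mpr e7).pow_left.dvd_of_dvd_mul_right h9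
    have : z - (P %ₘ X ^ (d + 1)).eval x = (z - y) + (y - (P %ₘ X ^ (d + 1)).eval x) := by ring
    rw [this]
    exact dvd_add e8 e1

end hensel

end Fermat.Agent.Switch
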