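import Fermat.Agent.Switch.Hensel

set_option autoImplicit false

/-!
# The quartic has no polynomial root
-/

open Polynomial

namespace Fermat.Agent.Switch

lemma rootMultiplicity_pow' {k : Type*} [Field k] (p : k[X]) (n : ℕ) (r : k) :
    (p^n).rootMultiplicity r = n * p.rootMultiplicity r := by
  classical
  rw [← count_roots, roots_pow, Multiset.count_nsmul, count_roots]

theorem no_poly_root {k : Type*} [Field k] [IsAlgClosed k] [CharZero k] {c s D z : k[X]} {κ : k}
    (hκ : κ ≠ 0) (h : c ^ 3 - s ^ 2 = C κ * D ^ 5) (hD : D.natDegree = 12) (hc : c.natDegree ≤ 20)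
    (hz : z.natDegree ≤ 10) (hsep : ∀ r, D.eval r = 0 → (derivative D).eval r ≠ 0 ∧ c.eval r ≠ 0)
    (hq : quart c s z = 0) : False := by
  classical
  have hD0 : D ≠ 0 := by
    intro h0; rw [h0] at hD; simp at hD
  have hkey : (c - z^2)^3 * (z^2 - 9*c) = C (64 * κ) * (z^2 * D^5) := by
    have h1 := quart_key c s z
    rw [hq, h] at h1
    have h64 : (C (64 * κ) : k[X]) = 64 * C κ := by rw [C_mul]; simp [map_ofNat]
    rw [h64]
    linear_combination h1
  -- there is a root of `D`
  have hroots : Multiset.card D.roots = 12 := by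
    rw [← hD]
    exact (IsAlgClosed.splits D).natDegree_eq_card_roots.symm
  have hzr : ∀ r, D.eval r = 0 → z.eval r ≠ 0 := by
    intro r hr hzr
    have h1 := map_quart (evalRingHom r) c s z
    rw [hq] at h1
    simp only [coe_evalRingHom, eval_zero] at h1
    rw [hzr] at h1
    have h2 : (3 : k) * c.eval r ^ 2 = 0 := by
      unfold quart at h1; linear_combination h1
    have h3 := (mul_eq_zero.mp h2).resolve_left (by norm_num)
    exact (hsep r hr).2 (pow_eq_zero_iff (by norm_num) |>.mp h3)
  obtain ⟨r0, hr0⟩ : ∃ r, r ∈ D.roots := by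
    apply Multiset.card_pos_iff_exists_mem.mp
    rw [hroots]; norm_num
  have hr0' : D.eval r0 = 0 := (mem_roots hD0).mp hr0
  have hz0 : z ≠ 0 := by
    intro h0
    apply hzr r0 hr0'
    rw [h0, eval_zero]
  have h64κ : (64 * κ : k) ≠ 0 := mul_ne_zero (by norm_num) hκ
  have hR0 : C (64 * κ) * (z^2 * D^5) ≠ 0 :=
    mul_ne_zero (C_ne_zero.mpr h64κ) (mul_ne_zero (pow_ne_zero _ hz0) (pow_ne_zero _ hD0))
  have hL0 : (c - z^2)^3 * (z^2 - 9*c) ≠ 0 := by rw [hkey]; exact hR0
  have hf2 : (z^2 - 9*c) ≠ 0 := right_ne_zero_of_mul hL0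
  have hf1 : (c - z^2)^3 ≠ 0 := left_ne_zero_of_mul hL0
  -- multiplicities
  have hmult : ∀ r ∈ D.roots, 5 ≤ (z^2 - 9*c).rootMultiplicity r := by
    intro r hr
    have hr' : D.eval r = 0 := (mem_roots hD0).mp hr
    obtain ⟨hs1, hs2⟩ := hsep r hr'
    have hm1 : D.rootMultiplicity r = 1 := by
      have h1 : 0 < D.rootMultiplicity r := (rootMultiplicity_pos hD0).mpr hr'
      have h2 : ¬ 1 < D.rootMultiplicity r := by
        intro h3
        exact hs1 ((one_lt_rootMultiplicity_iff_isRoot hD0).mp h3).2
      omega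
    have e1 := congrArg (rootMultiplicity r) hkey
    rw [rootMultiplicity_mul hL0, rootMultiplicity_mul hR0,
      rootMultiplicity_mul (right_ne_zero_of_mul hR0), rootMultiplicity_C,
      rootMultiplicity_pow', rootMultiplicity_pow', rootMultiplicity_pow',
      rootMultiplicity_eq_zero (p := z) (hzr r hr'), hm1] at e1
    have e2 : (c - z^2).rootMultiplicity r = 0 ∨ (z^2 - 9*c).rootMultiplicity r = 0 := by
      by_contra hne
      push Not at hne
      have h1 : (c - z^2).eval r = 0 := (rootMultiplicity_pos'.mp (Nat.pos_of_ne_zero hne.1)).2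
      have h2 : (z^2 - 9*c).eval r = 0 := (rootMultiplicity_pos'.mp (Nat.pos_of_ne_zero hne.2)).2
      simp only [eval_sub, eval_mul, eval_pow, eval_ofNat] at h1 h2
      apply hs2
      have h3 : (8 : k) * c.eval r = 0 := by linear_combination -h1 - h2
      exact (mul_eq_zero.mp h3).resolve_left (by norm_num)
    omega
  have hle : 5 • D.roots ≤ (z^2 - 9*c).roots := by
    rw [Multiset.le_iff_count]
    intro r
    rw [Multiset.count_nsmul, count_roots, count_roots]
    by_cases hr : r ∈ D.roots
    · have h1 := hmult r hr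
      have hm1 : D.rootMultiplicity r ≤ 1 := by
        have hr' : D.eval r = 0 := (mem_roots hD0).mp hr
        by_contra h3
        rw [not_le] at h3
        exact (hsep r hr').1 ((one_lt_rootMultiplicity_iff_isRoot hD0).mp h3).2
      omega
    · have : D.rootMultiplicity r = 0 := by
        rw [← count_roots]; exact Multiset.count_eq_zero_of_notMem hr
      rw [this]; simp
  have hcard := Multiset.card_le_card hle
  rw [Multiset.card_nsmul, hroots] at hcard
  have hdeg : (z^2 - 9*c).natDegree ≤ 20 := by
    have h9 : (9 : k[X]).natDegree ≤ 0 := by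
      rw [show (9 : k[X]) = C 9 by simp [map_ofNat]]; simp
    have t1 : (z^2).natDegree ≤ 20 := natDegree_pow_le_of_le 2 hz
    have t2 : (9*c).natDegree ≤ 20 := natDegree_mul_le_of_le (m := 0) (n := 20) h9 hc
    have := natDegree_sub_le_of_le t1 t2
    simpa using this
  have := card_roots' (z^2 - 9*c)
  omega

end Fermat.Agent.Switch
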