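import Fermat.Agent.Icosa.Count
import Fermat.Agent.Switch.Hensel

set_option autoImplicit false

/-!
# Points of order 3
-/

open WeierstrassCurve WeierstrassCurve.Affine WeierstrassCurve.Affine.Point
open Fermat.Agent.Icosa

namespace Fermat.Agent.Switch

variable {k : Type*} [Field k] [DecidableEq k] (V : WeierstrassCurve k)

/-- the 3-division polynomial -/
def psi3 (x : k) : k := 3*x^4 + V.b₂*x^3 + 3*V.b₄*x^2 + 3*V.b₆*x + V.b₈

omit [DecidableEq k] in
lemma psi3_id {x y : k} (h : V.toAffine.Equation x y) :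
    (3*x^2 + 2*V.a₂*x + V.a₄ - V.a₁*y)^2 + V.a₁*(3*x^2 + 2*V.a₂*x + V.a₄ - V.a₁*y) *
      (2*y + V.a₁*x + V.a₃) - (V.a₂ + 3*x)*(2*y + V.a₁*x + V.a₃)^2 = - psi3 V x := by
  rw [WeierstrassCurve.Affine.equation_iff] at h
  have h' : y^2 + V.a₁*x*y + V.a₃*y - (x^3 + V.a₂*x^2 + V.a₄*x + V.a₆) = 0 := by
    linear_combination h
  unfold psi3 WeierstrassCurve.b₂ WeierstrassCurve.b₄ WeierstrassCurve.b₆ WeierstrassCurve.b₈
  linear_combination (-(12 * x + V.a₁^2 + 4 * V.a₂)) * h'

omit [DecidableEq k] in
lemma quart_psi3 (x : k) : quart V.c₄ V.c₆ (12*x + V.b₂) = 6912 * psi3 V x := by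
  have hb := V.b_relation
  unfold quart psi3 WeierstrassCurve.c₄ WeierstrassCurve.c₆
  linear_combination (-1728) * hb

variable {V}

lemma psi3_of_three {x y : k} (h : V.toAffine.Nonsingular x y)
    (h3 : (Point.some x y h : V.toAffine.Point) + .some x y h = -.some x y h) : psi3 V x = 0 := by
  have hne : y ≠ V.toAffine.negY x y := by
    intro hy
    rw [add_self_of_Y_eq hy] at h3
    exact some_ne_zero h (neg_eq_zero.mp h3.symm)
  rw [add_self_of_Y_ne hne, neg_some, some.injEq] at h3
  have hx := h3.1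
  rw [slope_of_Y_ne rfl hne, addX] at hx
  have hD : y - V.toAffine.negY x y = 2*y + V.a₁*x + V.a₃ := by rw [negY]; ring
  have hDne : 2*y + V.a₁*x + V.a₃ ≠ 0 := by rw [← hD]; exact sub_ne_zero.mpr hne
  rw [hD] at hx
  have h1 := psi3_id V h.1
  have h2 : (3*x^2 + 2*V.a₂*x + V.a₄ - V.a₁*y)^2 + V.a₁*(3*x^2 + 2*V.a₂*x + V.a₄ - V.a₁*y) *
      (2*y + V.a₁*x + V.a₃) - (V.a₂ + 3*x)*(2*y + V.a₁*x + V.a₃)^2 = 0 := by
    generalize 3*x^2 + 2*V.a₂*x + V.a₄ - V.a₁*y = n at *
    generalize 2*y + V.a₁*x + V.a₃ = D at *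
    field_simp at hx
    linear_combination hx
  rw [h2] at h1
  linear_combination h1

lemma three_of_psi3 {x y : k} (h : V.toAffine.Nonsingular x y) (h3 : psi3 V x = 0) :
    (Point.some x y h : V.toAffine.Point) + .some x y h = -.some x y h := by
  have h1 := psi3_id V h.1
  rw [h3, _root_.neg_zero] at h1
  have hD : y - V.toAffine.negY x y = 2*y + V.a₁*x + V.a₃ := by rw [negY]; ring
  have hne : y ≠ V.toAffine.negY x y := by
    intro hy
    have hD0 : 2*y + V.a₁*x + V.a₃ = 0 := by rw [← hD, sub_eq_zero]; exact hy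
    rw [hD0] at h1
    have hN : 3*x^2 + 2*V.a₂*x + V.a₄ - V.a₁*y = 0 := by
      have : (3*x^2 + 2*V.a₂*x + V.a₄ - V.a₁*y)^2 = 0 := by linear_combination h1
      exact pow_eq_zero_iff (by norm_num) |>.mp this
    rw [WeierstrassCurve.Affine.nonsingular_iff] at h
    rcases h.2 with h' | h'
    · apply h'; linear_combination -hN
    · exact h' hy
  have hDne : 2*y + V.a₁*x + V.a₃ ≠ 0 := by rw [← hD]; exact sub_ne_zero.mpr hne
  have hx : V.toAffine.addX x x (V.toAffine.slope x x y y) = x := by
    rw [slope_of_Y_ne rfl hne, addX, hD]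
    generalize 3*x^2 + 2*V.a₂*x + V.a₄ - V.a₁*y = n at *
    generalize 2*y + V.a₁*x + V.a₃ = D at *
    field_simp
    linear_combination h1
  have hsum := add_self_of_Y_ne (h₁ := h) hne
  have hns := nonsingular_add h h (fun hxy => hne hxy.2)
  rcases eq_or_eq_neg_of_xc (A := (Point.some x y h : V.toAffine.Point) + .some x y h)
    (B := .some x y h) (by rw [hsum]; exact some_ne_zero _) (some_ne_zero _)
    (by rw [hsum]; exact hx) with h4 | h4
  · exfalso
    simp at h4
  · exact h4

lemma three_smul_of_psi3 {x y : k} (h : V.toAffine.Nonsingular x y) (h3 : psi3 V x = 0) :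
    (3 : ℤ) • (Point.some x y h : V.toAffine.Point) = 0 := by
  rw [show (3 : ℤ) = 1 + 1 + 1 by norm_num, add_smul, add_smul, one_smul,
    three_of_psi3 h h3, neg_add_cancel]

/-- `psi3` as a polynomial -/
noncomputable def psi3P (V : WeierstrassCurve k) : Polynomial k :=
  .C 3 * .X^4 + .C V.b₂ * .X^3 + .C (3*V.b₄) * .X^2 + .C (3*V.b₆) * .X + .C V.b₈

omit [DecidableEq k] in
lemma psi3P_eval (x : k) : (psi3P V).eval x = psi3 V x := by
  simp [psi3P, psi3]

omit [DecidableEq k] in
lemma psi3P_natDegree_le : (psi3P V).natDegree ≤ 4 := by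
  unfold psi3P; compute_degree

omit [DecidableEq k] in
lemma psi3P_coeff : (psi3P V).coeff 4 = 3 := by
  unfold psi3P; compute_degree
  all_goals norm_num

omit [DecidableEq k] in
lemma psi3P_ne_zero (h3 : (3 : k) ≠ 0) : psi3P V ≠ 0 := by
  intro h
  have := psi3P_coeff (V := V)
  rw [h, Polynomial.coeff_zero] at this
  exact h3 this.symm

lemma xc_psi3 {A : V.toAffine.Point} (hA : A ≠ 0) (h3 : (3 : ℤ) • A = 0) : psi3 V (xc A) = 0 := by
  match A, hA, h3 with
  | .some x y h, hA, h3 =>
    apply psi3_of_three h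
    rw [show (3 : ℤ) = 1 + 1 + 1 by norm_num, add_smul, add_smul, one_smul] at h3
    exact eq_neg_of_add_eq_zero_left h3

/-- The 3-torsion is generated by any two independent points. -/
lemma mem_span_of_three (h3' : (3 : k) ≠ 0) {P Q R : V.toAffine.Point} (hP : P ≠ 0) (hQ : Q ≠ 0)
    (hP3 : (3 : ℤ) • P = 0) (hQ3 : (3 : ℤ) • Q = 0) (hR3 : (3 : ℤ) • R = 0) (h1 : Q ≠ P)
    (h2 : Q ≠ -P) (H : AddSubgroup V.toAffine.Point) (hPH : P ∈ H) (hQH : Q ∈ H) : R ∈ H := by
  by_cases hR : R = 0
  · rw [hR]; exact H.zero_mem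
  have hadd : P + Q ≠ 0 := fun h => h2 (eq_neg_of_add_eq_zero_right h)
  have hsub : P - Q ≠ 0 := fun h => h1 (sub_eq_zero.mp h).symm
  let s : Finset k := {xc P, xc Q, xc (P + Q), xc (P - Q)}
  have hs : s.card = 4 := by
    have n1 : xc P ≠ xc Q := by
      intro h
      rcases eq_or_eq_neg_of_xc hP hQ h with h | h
      · exact h1 h.symm
      · exact h2 (by linear_combination (norm := module) h)
    have n2 : xc P ≠ xc (P + Q) := by
      intro h
      rcases eq_or_eq_neg_of_xc hP hadd h with h | h
      · exact hQ (by linear_combination (norm := module) -h)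
      · exact h1 (by linear_combination (norm := module) h - hP3)
    have n3 : xc P ≠ xc (P - Q) := by
      intro h
      rcases eq_or_eq_neg_of_xc hP hsub h with h | h
      · exact hQ (by linear_combination (norm := module) h)
      · exact h2 (by linear_combination (norm := module) -h + hP3)
    have n4 : xc Q ≠ xc (P + Q) := by
      intro h
      rcases eq_or_eq_neg_of_xc hQ hadd h with h | h
      · exact hP (by linear_combination (norm := module) -h)
      · exact h1 (by linear_combination (norm := module) -h + hQ3)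
    have n5 : xc Q ≠ xc (P - Q) := by
      intro h
      rcases eq_or_eq_neg_of_xc hQ hsub h with h | h
      · exact h2 (by linear_combination (norm := module) -h + hQ3)
      · exact hP (by linear_combination (norm := module) h)
    have n6 : xc (P + Q) ≠ xc (P - Q) := by
      intro h
      rcases eq_or_eq_neg_of_xc hadd hsub h with h | h
      · exact hQ (by linear_combination (norm := module) hQ3 - h)
      · exact hP (by linear_combination (norm := module) hP3 - h)
    simp only [s]
    rw [Finset.card_insert_of_notMem, Finset.card_insert_of_notMem, Finset.card_insert_of_notMem,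
      Finset.card_singleton]
    · simpa using n6
    · simp [n4, n5]
    · simp [n1, n2, n3]
  have hmem : xc R ∈ s := by
    by_contra hR'
    have h5 : insert (xc R) s ⊆ (psi3P V).roots.toFinset := by
      intro a ha
      rw [Multiset.mem_toFinset, Polynomial.mem_roots (psi3P_ne_zero h3'), Polynomial.IsRoot.def,
        psi3P_eval]
      simp only [s, Finset.mem_insert, Finset.mem_singleton] at ha
      rcases ha with rfl | rfl | rfl | rfl | rfl
      · exact xc_psi3 hR hR3
      · exact xc_psi3 hP hP3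
      · exact xc_psi3 hQ hQ3
      · exact xc_psi3 hadd (by rw [smul_add, hP3, hQ3, add_zero])
      · exact xc_psi3 hsub (by rw [smul_sub, hP3, hQ3, sub_zero])
    have h6 := Finset.card_le_card h5
    rw [Finset.card_insert_of_notMem hR', hs] at h6
    have h7 := (Multiset.toFinset_card_le (psi3P V).roots).trans
      ((Polynomial.card_roots' _).trans psi3P_natDegree_le)
    omega
  simp only [s, Finset.mem_insert, Finset.mem_singleton] at hmem
  have key : ∀ A : V.toAffine.Point, A ≠ 0 → A ∈ H → xc R = xc A → R ∈ H := by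
    intro A hA hAH h
    rcases eq_or_eq_neg_of_xc hR hA h with h | h
    · rw [h]; exact hAH
    · rw [h]; exact H.neg_mem hAH
  rcases hmem with h | h | h | h
  · exact key P hP hPH h
  · exact key Q hQ hQH h
  · exact key _ hadd (H.add_mem hPH hQH) h
  · exact key _ hsub (H.sub_mem hPH hQH) h

end Fermat.Agent.Switch
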